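import Fermat.Agent.PTC.Levels
import Fermat.Agent.CFT6.Cyc

/-!
# Field `cyc` of `PTHyp` for the concrete datum
-/

set_option autoImplicit false

namespace Fermat.Agent.PTC

open Fermat.Agent.PT

variable (p : ℕ) [hp : Fact p.Prime] {S : Finset Nat.Primes}

/-- bounded number of places in the cyclotomic tower -/
theorem cyc (hp2 : p ≠ 2) (hpS : ExtCitation.pPrime p ∈ S) (U : Subgroup GQ)
    (hU : IsOpenSub (sL S) U) : ∃ C : ℕ, ∀ k : ℕ, ∃ U' : Subgroup GQ, U' ≤ U ∧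
      IsOpenSub (sL S) U' ∧ (U'.subgroupOf U).Normal ∧ U'.relIndex U = p ^ k ∧
        (ptd S).s U' ≤ C := by
  refine Fermat.Agent.CFT6.cyc_of p hp2 (ptd S) (fun k => ?_) (fun v => ?_) U hU
  · exact isOpenSub_sL_iff.2 ⟨_, Fermat.Agent.CFT6.rootField_unr p k hpS,
      Fermat.Agent.CFT6.rootField_fix p k⟩
  · exact Fermat.Agent.CFT6.card_orb_NN_le p hp2 v.1

end Fermat.Agent.PTC
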