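import Fermat.Agent.PTC.Levels
import Fermat.Agent.PTC.Cyc
import Fermat.Agent.PTLocal.LocHyp
import Fermat.Agent.PTGlob.Omega

/-!
# Comparison of level systems, local hypotheses, and the trivial fields of `PTHyp`
-/

set_option autoImplicit false

namespace Fermat.Agent.PTC

open Fermat.Agent.PT

local instance isAlgebraicQbar_br : Algebra.IsAlgebraic ℚ (AlgebraicClosure ℚ) :=
  AlgebraicClosure.isAlgebraic ℚ
local instance isAlgClosureQbar_br : IsAlgClosure ℚ (AlgebraicClosure ℚ) :=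
  ⟨inferInstance, inferInstance⟩
local instance normalQbar_br : Normal ℚ (AlgebraicClosure ℚ) :=
  IsAlgClosure.normal ℚ (AlgebraicClosure ℚ)
local instance isGaloisQbar_br : IsGalois ℚ (AlgebraicClosure ℚ) := ⟨⟩

lemma Levels_ext {G : Type*} [Group G] {L L' : Levels G} (h : L.carrier = L'.carrier) :
    L = L' := by
  cases L
  cases L'
  subst h
  rfl

lemma normal_of_fixing_normal (F : IntermediateField ℚ (AlgebraicClosure ℚ))
    (hF : F.fixingSubgroup.Normal) : @Normal ℚ F _ _ F.algebra' := by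
  have := (InfiniteGalois.normal_iff_isGalois F).1 hF
  exact IsGalois.to_normal

variable {S : Finset Nat.Primes}

lemma levS_eq : PTGlob.levS S = sL S := by
  apply Levels_ext
  ext N
  constructor
  · rintro ⟨F, hF, hn, rfl⟩
    exact ⟨fixing_normal F hn, F, hF, rfl⟩
  · rintro ⟨hn, F, hF, rfl⟩
    exact ⟨F, hF, normal_of_fixing_normal F hn, rfl⟩

lemma galLevels_eq : PTLocal.galLevels ℚ (AlgebraicClosure ℚ) = allL := by
  apply Levels_ext
  ext N
  constructor
  · rintro ⟨F, hF, hn, rfl⟩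
    exact ⟨fixing_normal F hn, F, hF, rfl⟩
  · rintro ⟨hn, F, hF, rfl⟩
    exact ⟨F, hF, normal_of_fixing_normal F hn, rfl⟩

lemma qLevels_eq (q : ℕ) [Fact q.Prime] :
    PTLocal.qLevels q = allL.comap (localGaloisToGlobal q) := by
  rw [PTLocal.qLevels, galLevels_eq]

variable (p : ℕ) [hp : Fact p.Prime]

lemma cyclo_spec (σ : GQ) {t : AlgebraicClosure ℚ} (ht : t ^ p = 1) :
    σ t = t ^ (ExtCitation.cycloChar p σ : ZMod p).val := by
  haveI : NeZero p := ⟨hp.out.ne_zero⟩
  have h1 : (Units.mkOfMulEqOne t (t ^ (p - 1)) (by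
      rw [← pow_succ', Nat.sub_add_cancel hp.out.one_le, ht])) ∈
      rootsOfUnity p (AlgebraicClosure ℚ) := by
    rw [mem_rootsOfUnity]
    ext
    exact ht
  exact modularCyclotomicCharacter.spec (AlgebraicClosure ℚ)
    (ExtCitation.card_rootsOfUnity_eq_self p) (σ : AlgebraicClosure ℚ ≃+* AlgebraicClosure ℚ) h1

lemma mem_muW_iff {σ : GQ} {ζ : AlgebraicClosure ℚ} (hζ : IsPrimitiveRoot ζ p) :
    σ ∈ muW p ↔ σ ζ = ζ := by
  unfold muW
  rw [MonoidHom.mem_ker]
  have h := cyclo_spec p σ hζ.pow_eq_one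
  constructor
  · intro h1
    rw [h, h1, Units.val_one, ZMod.val_one, pow_one]
  · intro h1
    rw [h1] at h
    have h2 : ζ ^ 1 = ζ ^ (ExtCitation.cycloChar p σ : ZMod p).val := by rw [pow_one, ← h]
    have h3 := hζ.pow_inj hp.out.one_lt (ZMod.val_lt _) h2
    apply Units.ext
    rw [Units.val_one]
    apply ZMod.val_injective p
    rw [← h3, ZMod.val_one]

lemma exists_zeta : ∃ ζ : AlgebraicClosure ℚ, IsPrimitiveRoot ζ p := by
  haveI : NeZero (p : AlgebraicClosure ℚ) := ⟨by exact_mod_cast hp.out.ne_zero⟩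
  exact HasEnoughRootsOfUnity.exists_primitiveRoot _ p

/-- `ker ω` is open for the levels unramified outside `S ∋ p` -/
lemma muW_open (hpS : ExtCitation.pPrime p ∈ S) : IsOpenSub (sL S) (muW p) := by
  obtain ⟨ζ, hζ⟩ := exists_zeta p
  refine isOpenSub_sL_iff.2 ⟨_, CFT6.rootField_unr p 0 hpS, fun σ hσ => ?_⟩
  rw [mem_muW_iff p hζ]
  rw [IntermediateField.mem_fixingSubgroup_iff] at hσ
  refine hσ ζ (IntermediateField.subset_adjoin _ _ ?_)
  show ζ ^ p ^ (0 + 1) = 1
  rw [zero_add, pow_one]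
  exact hζ.pow_eq_one

lemma muA_smooth (hpS : ExtCitation.pPrime p ∈ S) : Smooth (sL S) (muA p) := by
  obtain ⟨N, hN, h⟩ := muW_open p hpS
  exact fun a => ⟨N, hN, fun s hs => muW_triv p s (h hs) a⟩

lemma mem_muW_iff' {σ : GQ} : σ ∈ muW p ↔ ∀ a, muA p σ a = a := by
  constructor
  · exact fun h => muW_triv p σ h
  · intro h
    have h1 := h 1
    rw [muA, mulAct_apply, mul_one] at h1
    exact Units.ext h1

/-- the local hypotheses -/
theorem locHyp (v : ↥S) : LocHyp p (allL.comap (ExtCitation.primeLocalToGlobal v.1))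
    ((muA p).comp (ExtCitation.primeLocalToGlobal v.1))
    ((muW p).comap (ExtCitation.primeLocalToGlobal v.1)) (eAt p S v) := by
  obtain ⟨ζ, hζ⟩ := exists_zeta p
  letI : Fact (v.1 : ℕ).Prime := ⟨v.1.2⟩
  have h := PTLocal.locHyp_main (q := (v.1 : ℕ)) (p := p)
    (allL.comap (localGaloisToGlobal (v.1 : ℕ))) (by
      rintro _ ⟨_, ⟨hn, F, hF, rfl⟩, rfl⟩
      exact ⟨F, hF, fun g hg => hg⟩) (by
      intro F hF
      obtain ⟨N, hN, h⟩ := exists_allL_le F hF
      exact ⟨_, ⟨N, hN, rfl⟩, fun g hg => h hg⟩) (muA p) hζ (fun g => by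
        rw [cyclo_spec p g hζ.pow_eq_one, muA, mulAct_apply, mul_one]) (muW p)
        (fun g => mem_muW_iff' p)
  have he : eAt p S v = if p = (v.1 : ℕ) then 1 else 0 := by
    unfold eAt
    by_cases h : (v.1 : ℕ) = p
    · rw [if_pos h, if_pos h.symm]
    · rw [if_neg h, if_neg (Ne.symm h)]
  rw [he]
  exact h

end Fermat.Agent.PTC
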