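import Fermat.Agent.PTC.Inertia
import Fermat.Agent.PT.Formal

/-!
# The concrete levels on `Gal(ℚ̄/ℚ)` and on the local groups
-/

set_option autoImplicit false

namespace Fermat.Agent.PTC

open Fermat.Agent.PT

local instance isAlgebraicQbar_lv : Algebra.IsAlgebraic ℚ (AlgebraicClosure ℚ) :=
  AlgebraicClosure.isAlgebraic ℚ
local instance isAlgClosureQbar_lv : IsAlgClosure ℚ (AlgebraicClosure ℚ) :=
  ⟨inferInstance, inferInstance⟩
local instance normalQbar_lv : Normal ℚ (AlgebraicClosure ℚ) :=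
  IsAlgClosure.normal ℚ (AlgebraicClosure ℚ)
local instance isGaloisQbar_lv : IsGalois ℚ (AlgebraicClosure ℚ) := ⟨⟩

/-- the absolute Galois group of `ℚ` -/
abbrev GQ : Type := AlgebraicClosure ℚ ≃ₐ[ℚ] AlgebraicClosure ℚ

lemma fixing_normal (F : IntermediateField ℚ (AlgebraicClosure ℚ))
    (hF : @Normal ℚ F _ _ F.algebra') : F.fixingSubgroup.Normal := by
  have : @IsGalois ℚ _ F _ F.algebra' := by constructor
  exact (InfiniteGalois.normal_iff_isGalois F).2 this

lemma fixing_finiteIndex (F : IntermediateField ℚ (AlgebraicClosure ℚ))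
    (hF : FiniteDimensional ℚ F) : F.fixingSubgroup.FiniteIndex := by
  constructor
  rw [← IntermediateField.finrank_eq_fixingSubgroup_index]
  exact Module.finrank_pos.ne'

/-- all finite normal levels -/
def allL : Levels GQ where
  carrier := {N | N.Normal ∧ ∃ F : IntermediateField ℚ (AlgebraicClosure ℚ),
    FiniteDimensional ℚ F ∧ N = F.fixingSubgroup}
  nonempty' := ⟨⊤, inferInstance, ⊥, inferInstance, IntermediateField.fixingSubgroup_bot.symm⟩
  directed' := by
    rintro _ ⟨hn, F, hF, rfl⟩ _ ⟨hn', F', hF', rfl⟩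
    refine ⟨_, ⟨?_, F ⊔ F', inferInstance, rfl⟩, ?_, ?_⟩
    · rw [IntermediateField.fixingSubgroup_sup]
      exact Subgroup.normal_inf_normal _ _
    · exact IntermediateField.fixingSubgroup_antitone le_sup_left
    · exact IntermediateField.fixingSubgroup_antitone le_sup_right
  normal' := by
    rintro _ ⟨hn, F, hF, rfl⟩
    exact hn
  finiteIndex' := by
    rintro _ ⟨hn, F, hF, rfl⟩
    exact fixing_finiteIndex F hF

/-- levels unramified outside `S` -/
def sL (S : Finset Nat.Primes) : Levels GQ where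
  carrier := {N | N.Normal ∧ ∃ F : IntermediateField ℚ (AlgebraicClosure ℚ),
    F.IsUnramifiedOutside S ∧ N = F.fixingSubgroup}
  nonempty' := ⟨⊤, inferInstance, ⊥, IntermediateField.isUnramifiedOutside_bot S,
    IntermediateField.fixingSubgroup_bot.symm⟩
  directed' := by
    rintro _ ⟨hn, F, hF, rfl⟩ _ ⟨hn', F', hF', rfl⟩
    refine ⟨_, ⟨?_, F ⊔ F', hF.sup hF', rfl⟩, ?_, ?_⟩
    · rw [IntermediateField.fixingSubgroup_sup]
      exact Subgroup.normal_inf_normal _ _
    · exact IntermediateField.fixingSubgroup_antitone le_sup_left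
    · exact IntermediateField.fixingSubgroup_antitone le_sup_right
  normal' := by
    rintro _ ⟨hn, F, hF, rfl⟩
    exact hn
  finiteIndex' := by
    rintro _ ⟨hn, F, hF, rfl⟩
    exact fixing_finiteIndex F hF.1

variable {S : Finset Nat.Primes}

/-- every finite unramified outside `S` field gives a smaller level -/
lemma exists_sL_le {F : IntermediateField ℚ (AlgebraicClosure ℚ)}
    (hF : F.IsUnramifiedOutside S) : ∃ N ∈ (sL S).carrier, N ≤ F.fixingSubgroup :=
  ⟨_, ⟨fixing_normal _ (normalClosure.normal _ _ _), _,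
    IsUnramifiedOutside.normalClosure hF, rfl⟩,
    IntermediateField.fixingSubgroup_antitone (IntermediateField.le_normalClosure F)⟩

lemma exists_allL_le (F : IntermediateField ℚ (AlgebraicClosure ℚ))
    (hF : FiniteDimensional ℚ F) : ∃ N ∈ allL.carrier, N ≤ F.fixingSubgroup :=
  ⟨_, ⟨fixing_normal _ (normalClosure.normal _ _ _), _,
    normalClosure.is_finiteDimensional _ _ _, rfl⟩,
    IntermediateField.fixingSubgroup_antitone (IntermediateField.le_normalClosure F)⟩

lemma isOpenSub_sL_iff {U : Subgroup GQ} : IsOpenSub (sL S) U ↔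
    ∃ F : IntermediateField ℚ (AlgebraicClosure ℚ), F.IsUnramifiedOutside S ∧
      F.fixingSubgroup ≤ U := by
  constructor
  · rintro ⟨_, ⟨hn, F, hF, rfl⟩, h⟩
    exact ⟨F, hF, h⟩
  · rintro ⟨F, hF, h⟩
    obtain ⟨N, hN, h'⟩ := exists_sL_le hF
    exact ⟨N, hN, h'.trans h⟩

lemma isOpenSub_allL_iff {U : Subgroup GQ} : IsOpenSub allL U ↔
    ∃ F : IntermediateField ℚ (AlgebraicClosure ℚ), FiniteDimensional ℚ F ∧
      F.fixingSubgroup ≤ U := by
  constructor
  · rintro ⟨_, ⟨hn, F, hF, rfl⟩, h⟩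
    exact ⟨F, hF, h⟩
  · rintro ⟨F, hF, h⟩
    obtain ⟨N, hN, h'⟩ := exists_allL_le F hF
    exact ⟨N, hN, h'.trans h⟩

open groupCohomology in
lemma isLC₁_sL_iff {X : Type*} {f : GQ → X} : IsLC₁ (sL S) f ↔ IsLevelConstantS₁ S f := by
  constructor
  · rintro ⟨_, ⟨hn, F, hF, rfl⟩, h⟩
    exact ⟨F, hF, fun g s hs => h g s hs⟩
  · rintro ⟨F, hF, h⟩
    obtain ⟨N, hN, h'⟩ := exists_sL_le hF
    exact ⟨N, hN, fun g s hs => h g s (h' hs)⟩

open groupCohomology in
lemma isLC₂_sL_iff {X : Type*} {f : GQ → GQ → X} :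
    IsLC₂ (sL S) f ↔ IsLevelConstantS₂ S (fun x : GQ × GQ => f x.1 x.2) := by
  constructor
  · rintro ⟨_, ⟨hn, F, hF, rfl⟩, h⟩
    exact ⟨F, hF, fun g g' s s' hs hs' => h g g' s hs s' hs'⟩
  · rintro ⟨F, hF, h⟩
    obtain ⟨N, hN, h'⟩ := exists_sL_le hF
    exact ⟨N, hN, fun g g' s hs s' hs' => h g g' s s' (h' hs) (h' hs')⟩

section local_groups

variable {Γ : Type*} [Group Γ] (r : Γ →* GQ)

open groupCohomology in
lemma isLC₁_comap_iff {X : Type*} {f : Γ → X} :
    IsLC₁ (allL.comap r) f ↔ IsLevelConstant₁ r f := by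
  constructor
  · rintro ⟨_, ⟨_, ⟨hn, F, hF, rfl⟩, rfl⟩, h⟩
    exact ⟨F, hF, fun g s hs => h g s hs⟩
  · rintro ⟨F, hF, h⟩
    obtain ⟨N, hN, h'⟩ := exists_allL_le F hF
    exact ⟨_, ⟨N, hN, rfl⟩, fun g s hs => h g s (h' hs)⟩

open groupCohomology in
lemma isLC₂_comap_iff {X : Type*} {f : Γ → Γ → X} :
    IsLC₂ (allL.comap r) f ↔ IsLevelConstant₂ r (fun x : Γ × Γ => f x.1 x.2) := by
  constructor
  · rintro ⟨_, ⟨_, ⟨hn, F, hF, rfl⟩, rfl⟩, h⟩
    exact ⟨F, hF, fun g g' s s' hs hs' => h g g' s hs s' hs'⟩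
  · rintro ⟨F, hF, h⟩
    obtain ⟨N, hN, h'⟩ := exists_allL_le F hF
    exact ⟨_, ⟨N, hN, rfl⟩, fun g g' s hs s' hs' => h g g' s s' (h' hs) (h' hs')⟩

end local_groups

/-- the concrete global datum: `G_ℚ` with levels unramified outside `S`, local groups at `q ∈ S`
with all levels coming from number fields -/
@[reducible] noncomputable def ptd (S : Finset Nat.Primes) : PTData GQ where
  L := sL S
  ι := ↥S
  ft := inferInstance
  Γ q := ExtCitation.primeLocalGaloisGroup q.1
  grp _ := inferInstance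
  Lv q := allL.comap (ExtCitation.primeLocalToGlobal q.1)
  r q := ExtCitation.primeLocalToGlobal q.1
  lev q := by
    rintro _ ⟨hn, F, hF, rfl⟩
    exact ⟨_, ⟨_, ⟨hn, F, hF.1, rfl⟩, rfl⟩, fun γ h => h⟩

/-- multiplication by a unit of `ZMod p` -/
def mulAct {G : Type*} [Group G] {p : ℕ} (χ : G →* (ZMod p)ˣ) : Act G (ZMod p) where
  toFun g := AddMonoidHom.mulLeft (χ g : ZMod p)
  map_one' := by
    apply AddMonoidHom.ext
    intro a
    show ((χ 1 : (ZMod p)ˣ) : ZMod p) * a = a
    rw [map_one, Units.val_one, one_mul]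
  map_mul' g h := by
    apply AddMonoidHom.ext
    intro a
    show ((χ (g * h) : (ZMod p)ˣ) : ZMod p) * a = χ g * (χ h * a)
    rw [map_mul, Units.val_mul, mul_assoc]

@[simp] lemma mulAct_apply {G : Type*} [Group G] {p : ℕ} (χ : G →* (ZMod p)ˣ) (g : G)
    (a : ZMod p) : mulAct χ g a = (χ g : ZMod p) * a := rfl

variable (p : ℕ) [Fact p.Prime]

/-- `μ_p` as `ZMod p` with the cyclotomic character -/
noncomputable def muA : Act GQ (ZMod p) := mulAct (ExtCitation.cycloChar p)

/-- the kernel of the cyclotomic character -/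
noncomputable def muW : Subgroup GQ := (ExtCitation.cycloChar p).ker

/-- the exponent `e v` -/
def eAt (S : Finset Nat.Primes) (q : ↥S) : ℕ := if (q.1 : ℕ) = p then 1 else 0

lemma muW_normal : (muW p).Normal := by
  unfold muW
  infer_instance

lemma muW_triv : ∀ u ∈ muW p, ∀ a, muA p u a = a := by
  intro u hu a
  have h : ExtCitation.cycloChar p u = 1 := hu
  rw [muA, mulAct_apply, h, Units.val_one, one_mul]

lemma muW_idx : ¬ p ∣ (muW p).index := by
  unfold muW
  rw [Subgroup.index_ker]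
  intro h
  have h1 := Subgroup.card_subgroup_dvd_card (ExtCitation.cycloChar p).range
  rw [Nat.card_eq_fintype_card (α := (ZMod p)ˣ), ZMod.card_units p] at h1
  have h2 := Nat.le_of_dvd (Nat.sub_pos_of_lt (Fact.out (p := p.Prime)).one_lt) (h.trans h1)
  have h3 := (Fact.out (p := p.Prime)).pos
  omega

lemma sum_eAt (hp : ExtCitation.pPrime p ∈ S) : ∑ v, eAt p S v = 1 := by
  classical
  rw [Finset.sum_eq_single (⟨ExtCitation.pPrime p, hp⟩ : ↥S)]
  · simp [eAt]
  · intro b _ hb
    rw [eAt, if_neg]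
    intro h
    apply hb
    apply Subtype.ext
    apply Subtype.ext
    exact h
  · intro h
    exact absurd (Finset.mem_univ _) h

end Fermat.Agent.PTC
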