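import Fermat.Agent.PTC.Recip
import Fermat.Agent.ABHN.Final

/-!
# The field `recip` of `PTHyp`
-/

set_option autoImplicit false

namespace Fermat.Agent.PTC

open Fermat.Agent.PT Fermat.Agent.CFT Fermat.Agent.CFT6 Fermat.Agent.PTLocal

attribute [local instance] isGalois_qbar

variable {p : ℕ} [hp : Fact p.Prime]

/-- localisation for general levels -/
noncomputable def locGen (L : Levels GQ) (U : Subgroup GQ) (q : Nat.Primes) :
    PairHom L (mapAct (cosetAct U) ρQ) (L.comap (localGaloisToGlobal (q : ℕ)))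
      (mapAct ((cosetAct U).comp (localGaloisToGlobal (q : ℕ))) (galAct ℚ_[(q : ℕ)] (Cq q))) where
  r := localGaloisToGlobal (q : ℕ)
  f := (mapPair (φq q) (cosetAct U)).f
  lev N hN := ⟨_, ⟨N, hN, rfl⟩, fun _ h => h⟩
  comm := (mapPair (φq q) (cosetAct U)).comm

theorem abhnHyp (hp2 : p ≠ 2) : AbhnHyp p := by
  have key : ∀ (L : Levels GQ), L = allL → ∀ (U : Subgroup GQ), IsOpenSub L U →
      ∀ β : H2 L (mapAct (cosetAct U) ρQ), p • β = 0 →
      (∀ q : Nat.Primes, (locGen L U q).h2 β = 0) → β = 0 := by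
    rintro _ rfl U hU β hβ hloc
    have hfi : U.FiniteIndex := hU.finiteIndex
    have hX : Finite (GQ ⧸ U) := inferInstance
    refine ABHN.abhn_all_semi hp2 (cosetAct U) (levelTrivial_cosetAct hU) β hβ (fun q => ?_)
    refine Eq.trans ?_ (hloc q)
    exact PairHom.h2_congr (fun _ => rfl) (fun _ => rfl) β
  intro U hU β hβ hloc
  exact key _ galLevels_eq U hU β hβ hloc

/-- **Reciprocity**: the field `recip` of `PTHyp`. -/
theorem recip (hp2 : p ≠ 2) {S : Finset Nat.Primes} (hpS : ExtCitation.pPrime p ∈ S)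
    (x : H2 (sL S) (muA p)) (v : ↥S)
    (hx : ∀ w : ↥S, w ≠ v → ((ptd S).loc w (muA p)).h2 x = 0) :
    ((ptd S).loc v (muA p)).h2 x = 0 :=
  recip_of_abhn hp2 (abhnHyp hp2) hpS x v hx

end Fermat.Agent.PTC
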