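import Fermat.Agent.PT.Cohomology
import Fermat.Prelude.Def_GroupCohomology_ContinuousUnramified

/-!
# Inertia groups and conjugation, unramified extensions
-/

set_option autoImplicit false

open scoped Pointwise

namespace Fermat.Agent.PTC

section General

variable {L : Type*} [Field L]

lemma mem_nonunits_iff' (A : ValuationSubring L) (x : L) :
    x ∈ A.nonunits ↔ x = 0 ∨ x⁻¹ ∉ A := by
  rw [ValuationSubring.mem_nonunits_iff]
  by_cases hx : x = 0
  · subst hx
    simp
  · rw [or_iff_right hx, ← A.valuation_le_one_iff, map_inv₀, not_le, one_lt_inv₀]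
    exact (Valuation.pos_iff _).2 hx

variable {K : Type*} [Field K] [Algebra K L]

lemma mem_smul_nonunits (A : ValuationSubring L) (τ : L ≃ₐ[K] L) (x : L) :
    x ∈ (τ • A).nonunits ↔ τ⁻¹ x ∈ A.nonunits := by
  rw [mem_nonunits_iff', mem_nonunits_iff', ValuationSubring.mem_pointwise_smul_iff_inv_smul_mem]
  refine or_congr ?_ (not_congr ?_)
  · rw [map_eq_zero_iff _ (AlgEquiv.injective _)]
  · rw [AlgEquiv.smul_def, map_inv₀]

lemma liesOverPrime_smul {A : ValuationSubring L} {q : ℕ} (h : A.LiesOverPrime q)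
    (τ : L ≃ₐ[K] L) : (τ • A).LiesOverPrime q := by
  show (q : L) ∈ (τ • A).nonunits
  rw [mem_smul_nonunits, map_natCast]
  exact h

lemma mem_inertia_iff (A : ValuationSubring L) (σ : L ≃ₐ[K] L) :
    σ ∈ A.inertiaSubgroupIn K ↔ σ • A = A ∧ ∀ x ∈ A, σ x - x ∈ A.nonunits := by
  constructor
  · rintro ⟨τ, hτ, rfl⟩
    refine ⟨τ.2, fun x hx => ?_⟩
    have hτ' : MulSemiringAction.toRingAut (A.decompositionSubgroup K)
      (IsLocalRing.ResidueField A) τ = 1 := hτ
    set a : A := ⟨x, hx⟩ with ha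
    have h1 : τ • (IsLocalRing.residue A a) = IsLocalRing.residue A a := by
      have := congrArg (fun f : RingAut (IsLocalRing.ResidueField A) =>
        f (IsLocalRing.residue A a)) hτ'
      simpa using this
    have h2 : IsLocalRing.residue A (τ • a) = IsLocalRing.residue A a := by
      rw [← h1]; rfl
    have h3 : τ • a - a ∈ IsLocalRing.maximalIdeal A := by
      rw [← IsLocalRing.residue_eq_zero_iff, map_sub, h2, sub_self]
    have h4 := (A.valuation_lt_one_iff _).mp h3
    rw [ValuationSubring.mem_nonunits_iff]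
    exact h4
  · rintro ⟨hσ, h⟩
    refine ⟨⟨σ, hσ⟩, ?_, rfl⟩
    show _ ∈ MonoidHom.ker _
    rw [MonoidHom.mem_ker]
    apply RingEquiv.ext
    intro x
    obtain ⟨a, rfl⟩ := IsLocalRing.residue_surjective x
    show (⟨σ, hσ⟩ : A.decompositionSubgroup K) • IsLocalRing.residue A a =
      IsLocalRing.residue A a
    rw [← IsLocalRing.ResidueField.residue_smul, ← sub_eq_zero, ← map_sub,
      IsLocalRing.residue_eq_zero_iff]
    have := h a a.2
    rw [ValuationSubring.mem_nonunits_iff] at this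
    exact (A.valuation_lt_one_iff _).2 this

lemma inertia_conj {A : ValuationSubring L} {σ τ : L ≃ₐ[K] L}
    (h : σ ∈ A.inertiaSubgroupIn K) : τ⁻¹ * σ * τ ∈ (τ⁻¹ • A).inertiaSubgroupIn K := by
  rw [mem_inertia_iff] at h ⊢
  obtain ⟨h1, h2⟩ := h
  refine ⟨?_, fun x hx => ?_⟩
  · rw [mul_smul, smul_inv_smul, mul_smul, h1]
  · rw [ValuationSubring.mem_pointwise_smul_iff_inv_smul_mem, inv_inv, AlgEquiv.smul_def] at hx
    rw [mem_smul_nonunits, inv_inv, map_sub]
    have h3 : τ ((τ⁻¹ * σ * τ) x) = σ (τ x) := by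
      rw [mul_assoc, AlgEquiv.mul_apply, AlgEquiv.mul_apply]
      show (τ * τ⁻¹) (σ (τ x)) = _
      rw [mul_inv_cancel]; rfl
    rw [h3]
    exact h2 _ hx

end General

local instance isAlgebraicQbar_ptc : Algebra.IsAlgebraic ℚ (AlgebraicClosure ℚ) :=
  AlgebraicClosure.isAlgebraic ℚ
local instance isAlgClosureQbar_ptc : IsAlgClosure ℚ (AlgebraicClosure ℚ) :=
  ⟨inferInstance, inferInstance⟩
local instance normalQbar_ptc : Normal ℚ (AlgebraicClosure ℚ) :=
  IsAlgClosure.normal ℚ (AlgebraicClosure ℚ)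

/-- the normal closure of an extension unramified outside `S` is unramified outside `S` -/
theorem IsUnramifiedOutside.normalClosure {S : Finset Nat.Primes}
    {F : IntermediateField ℚ (AlgebraicClosure ℚ)} (hF : F.IsUnramifiedOutside S) :
    (IntermediateField.normalClosure ℚ F (AlgebraicClosure ℚ)).IsUnramifiedOutside S := by
  have := hF.1
  refine ⟨inferInstance, fun q hq A hA => ?_⟩
  rw [← IntermediateField.le_iff_le]
  refine (le_of_eq (IntermediateField.normalClosure_def'' F)).trans (iSup_le fun τ => ?_)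
  rintro _ ⟨x, hx, rfl⟩
  rw [IntermediateField.mem_fixedField_iff]
  intro σ hσ
  have h1 := hF.2 q hq (τ⁻¹ • A) (liesOverPrime_smul hA τ⁻¹) (inertia_conj (τ := τ) hσ)
  rw [IntermediateField.mem_fixingSubgroup_iff] at h1
  have h2 := congrArg τ (h1 x hx)
  rw [mul_assoc, AlgEquiv.mul_apply, AlgEquiv.mul_apply] at h2
  have h3 : ∀ y, τ (τ⁻¹ y) = y := fun y => by
    show (τ * τ⁻¹) y = y
    rw [mul_inv_cancel]; rfl
  rw [h3] at h2
  exact h2

end Fermat.Agent.PTC
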