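import Mathlib
import Fermat.Agent.PT.Cohomology

/-!
# Triviality of unramified 2-cocycles with torsion coefficients
-/

set_option autoImplicit false

namespace Fermat.Agent.PTC

open Fermat.Agent.PT

section

variable {Γ A : Type*} [Group Γ] [AddCommGroup A]

/-- partial sums of a cocycle along powers of a generator -/
def Bsum (c : Γ → Γ → A) (g : Γ) (j : ℕ) : A := ∑ i ∈ Finset.range j, c (g ^ i) g

variable (ρ : Act Γ A) (c : Γ → Γ → A)
  (hc : ∀ g h j, c (g * h) j + c g h = ρ g (c h j) + c g (h * j)) (N N' : Subgroup Γ)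
  (hcN : ∀ g h, ∀ s ∈ N, ∀ t ∈ N, c (g * s) (h * t) = c g h) (hρ : ∀ s ∈ N, ∀ a, ρ s a = a)

include hc in
lemma coc_one (g : Γ) : c g 1 = ρ g (c 1 1) := by
  have h := hc g 1 1
  rw [mul_one, mul_one] at h
  exact add_right_cancel h

include hc in
lemma Bsum_coc (g : Γ) (i j : ℕ) :
    ρ (g ^ i) (Bsum c g j) + c (g ^ i) (g ^ j) = Bsum c g (i + j) - Bsum c g i + ρ (g ^ i) (c 1 1) := by
  induction j with
  | zero =>
    simp only [Bsum, Finset.range_zero, Finset.sum_empty, map_zero, zero_add, pow_zero, add_zero,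
      sub_self]
    exact coc_one ρ c hc (g ^ i)
  | succ j ih =>
    have h1 := hc (g ^ i) (g ^ j) g
    have h2 : Bsum c g (j + 1) = Bsum c g j + c (g ^ j) g := Finset.sum_range_succ _ _
    have h3 : Bsum c g (i + (j + 1)) = Bsum c g (i + j) + c (g ^ (i + j)) g := by
      rw [← add_assoc]
      exact Finset.sum_range_succ _ _
    rw [h2, h3, map_add, pow_succ g j, pow_add]
    have h4 : ρ (g ^ i) (c (g ^ j) g) + c (g ^ i) (g ^ j * g) = c (g ^ i * g ^ j) g + c (g ^ i) (g ^ j) :=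
      h1.symm
    calc ρ (g ^ i) (Bsum c g j) + ρ (g ^ i) (c (g ^ j) g) + c (g ^ i) (g ^ j * g)
        = ρ (g ^ i) (Bsum c g j) + (ρ (g ^ i) (c (g ^ j) g) + c (g ^ i) (g ^ j * g)) := by abel
      _ = (ρ (g ^ i) (Bsum c g j) + c (g ^ i) (g ^ j)) + c (g ^ i * g ^ j) g := by rw [h4]; abel
      _ = _ := by rw [ih]; abel

include hcN in
lemma Bsum_add (g : Γ) {n : ℕ} (hn : g ^ n ∈ N) (j : ℕ) :
    Bsum c g (n + j) = Bsum c g n + Bsum c g j := by
  unfold Bsum
  rw [Finset.sum_range_add]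
  congr 1
  refine Finset.sum_congr rfl fun i _ => ?_
  have h := hcN (g ^ i) g (g ^ n) hn 1 N.one_mem
  rw [mul_one, ← pow_add, add_comm i n] at h
  exact h

include hcN in
lemma Bsum_add_mul (g : Γ) {n : ℕ} (hn : g ^ n ∈ N) (t j : ℕ) :
    Bsum c g (n * t + j) = t • Bsum c g n + Bsum c g j := by
  induction t with
  | zero => simp
  | succ t ih =>
    have h1 : n * (t + 1) + j = n + (n * t + j) := by ring
    rw [h1, Bsum_add c N hcN g hn, ih, succ_nsmul']
    abel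

include hc hcN hρ in
/-- a 2-cocycle inflated from a cyclic group of order `n` with `p`-torsion coefficients becomes
trivial on a cyclic group of order divisible by `n * p`. -/
theorem exists_cobound [hN' : N'.Normal] (hNN' : N' ≤ N) {p : ℕ} (hpA : ∀ a : A, p • a = 0) {g : Γ}
    (hgen : ∀ γ, ∃ j : ℕ, (g ^ j)⁻¹ * γ ∈ N') {n : ℕ} (hn : g ^ n ∈ N)
    (hord : ∀ j : ℕ, g ^ j ∈ N' → n * p ∣ j) :
    ∃ b : Γ → A, (∀ γ, ∀ s ∈ N', b (γ * s) = b γ) ∧ d1 ρ b = c := by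
  choose e he using hgen
  -- `B` depends only on the class
  have hB : ∀ i j : ℕ, i ≤ j → (g ^ i)⁻¹ * g ^ j ∈ N' → Bsum c g i = Bsum c g j := by
    intro i j hij h
    have h1 : g ^ (j - i) ∈ N' := by
      have : (g ^ i)⁻¹ * g ^ j = g ^ (j - i) := by
        rw [inv_mul_eq_iff_eq_mul, ← pow_add, Nat.add_sub_cancel' hij]
      rwa [this] at h
    obtain ⟨t, ht⟩ := hord _ h1
    have h2 : j = n * (p * t) + i := by rw [← mul_assoc, ← ht]; omega
    rw [h2, Bsum_add_mul c N hcN g hn, mul_nsmul, hpA, nsmul_zero, zero_add]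
  have hB' : ∀ i j : ℕ, (g ^ i)⁻¹ * g ^ j ∈ N' → Bsum c g i = Bsum c g j := by
    intro i j h
    rcases le_total i j with hij | hij
    · exact hB i j hij h
    · refine (hB j i hij ?_).symm
      have := N'.inv_mem h
      rwa [mul_inv_rev, inv_inv] at this
  have hBe : ∀ γ j, (g ^ j)⁻¹ * γ ∈ N' → Bsum c g (e γ) = Bsum c g j := by
    intro γ j h
    apply hB'
    have h1 := N'.mul_mem (he γ) (N'.inv_mem h)
    rw [mul_inv_rev, inv_inv] at h1
    have h2 : (g ^ e γ)⁻¹ * γ * (γ⁻¹ * g ^ j) = (g ^ e γ)⁻¹ * g ^ j := by group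
    rwa [h2] at h1
  refine ⟨fun γ => c 1 1 - Bsum c g (e γ), fun γ s hs => ?_, ?_⟩
  · show c 1 1 - _ = c 1 1 - _
    rw [hBe (γ * s) (e γ) (by rw [← mul_assoc]; exact N'.mul_mem (he γ) hs)]
  · ext γ γ'
    rw [d1_apply]
    set i := e γ with hi
    set j := e γ' with hj
    obtain ⟨ν, hν, hγ⟩ : ∃ ν ∈ N', γ = g ^ i * ν := ⟨_, he γ, by rw [← hi, mul_inv_cancel_left]⟩
    obtain ⟨ν', hν', hγ'⟩ : ∃ ν ∈ N', γ' = g ^ j * ν := ⟨_, he γ', by rw [← hj, mul_inv_cancel_left]⟩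
    have h1 : Bsum c g (e (γ * γ')) = Bsum c g (i + j) := by
      apply hBe
      have h2 : (g ^ (i + j))⁻¹ * (γ * γ') = ((g ^ j)⁻¹ * ν * g ^ j) * ν' := by
        rw [hγ, hγ', pow_add]; group
      rw [h2]
      refine N'.mul_mem ?_ hν'
      have := hN'.conj_mem ν hν (g ^ j)⁻¹
      rwa [inv_inv] at this
    have h2 : ∀ a, ρ γ a = ρ (g ^ i) a := by
      intro a
      rw [hγ, act_mul, hρ ν (hNN' hν)]
    have h3 : c γ γ' = c (g ^ i) (g ^ j) := by
      rw [hγ, hγ', hcN _ _ ν (hNN' hν) ν' (hNN' hν')]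
    have h4 := Bsum_coc ρ c hc g i j
    rw [h2, map_sub, h1, h3]
    have h5 : c (g ^ i) (g ^ j) = Bsum c g (i + j) - Bsum c g i + ρ (g ^ i) (c 1 1) -
        ρ (g ^ i) (Bsum c g j) := by rw [← h4]; abel
    rw [h5]; abel

end

end Fermat.Agent.PTC
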