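import Mathlib
import Fermat.Agent.PTC.UnrCoc
import Fermat.Agent.PTC.Levels
import Fermat.Agent.CFT6.UnrProc
import Fermat.Agent.CFT6.Cyc

/-!
# Unramified classes are locally trivial
-/

set_option autoImplicit false

namespace Fermat.Agent.PTC

open Fermat.Agent.PT Fermat.Agent.CFT Fermat.Agent.CFT6 Fermat.Agent.Frob

/-- the field of `m`-th roots of unity -/
noncomputable def rootF (m : ℕ) : IntermediateField ℚ (AlgebraicClosure ℚ) :=
  IntermediateField.adjoin ℚ {t | t ^ m = 1}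

lemma normal_conv {F : IntermediateField ℚ (AlgebraicClosure ℚ)} :
    @Normal ℚ F _ _ F.algebra' ↔ Normal ℚ F := by
  have h : (F.algebra' : Algebra ℚ F) = DivisionRing.toRatAlgebra := Subsingleton.elim _ _
  rw [h]

lemma rootF_normal (m : ℕ) : Normal ℚ (rootF m) := by
  apply IntermediateField.normal_iff_forall_map_le'.mpr
  intro σ
  rw [rootF, IntermediateField.adjoin_map]
  apply IntermediateField.adjoin.mono
  rintro _ ⟨t, ht, rfl⟩
  show (σ t) ^ _ = 1
  rw [← map_pow, show t ^ _ = 1 from ht, map_one]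

lemma rootF_finite {m : ℕ} (hm : 0 < m) : FiniteDimensional ℚ (rootF m) := by
  have hfin : Finite {t : AlgebraicClosure ℚ | t ^ m = 1} := by
    refine ((Polynomial.X ^ m - Polynomial.C (1 : AlgebraicClosure ℚ)).rootSet_finite
      (AlgebraicClosure ℚ)).subset ?_
    intro t ht
    have hne : (Polynomial.X ^ m - Polynomial.C (1 : AlgebraicClosure ℚ)) ≠ 0 :=
      Polynomial.X_pow_sub_C_ne_zero hm 1
    rw [Polynomial.mem_rootSet]
    refine ⟨hne, ?_⟩
    rw [Set.mem_ofPred_eq] at ht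
    simp [ht]
  exact IntermediateField.finiteDimensional_adjoin fun t _ => (Algebra.IsIntegral.isIntegral t)

lemma rootF_inertia {m : ℕ} (hm : 0 < m) {q : ℕ} (hq : q.Prime) (hmq : m.Coprime q)
    {A : ValuationSubring (AlgebraicClosure ℚ)} (hA : A.LiesOverPrime q) :
    A.inertiaSubgroupIn ℚ ≤ (rootF m).fixingSubgroup := by
  rw [← IntermediateField.le_iff_le, rootF, IntermediateField.adjoin_le_iff]
  rintro t ht ⟨g, hg⟩
  exact Fermat.Agent.QuadRep.inertia_smul_root hq hA hg hm hmq t ht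

lemma dvd_of_pow_sub_one_dvd {q a b : ℕ} (hq : 1 < q) (h : q ^ a - 1 ∣ q ^ b - 1) : a ∣ b := by
  have h1 := Nat.pow_sub_one_gcd_pow_sub_one q a b
  rw [Nat.gcd_eq_left h] at h1
  have h2 : q ^ a = q ^ (a.gcd b) := by
    have e1 : 1 ≤ q ^ a := Nat.one_le_pow _ _ (by omega)
    have e2 : 1 ≤ q ^ (a.gcd b) := Nat.one_le_pow _ _ (by omega)
    omega
  have h3 := Nat.pow_right_injective hq h2
  rw [h3]
  exact Nat.gcd_dvd_right _ _

/-- every class with finite torsion coefficients unramified at `q` is trivial at `q`. -/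
theorem unr_h2_eq_zero {S : Finset Nat.Primes} {q : Nat.Primes} (hqS : q ∉ S) {A B : Type*}
    [AddCommGroup A] [AddCommGroup B] {L : Levels GQ} {ρ : Act GQ A} {L' : Levels (Gq q)}
    {σ : Act (Gq q) B} (φ : PairHom L ρ L' σ) (hφ : φ.r = localGaloisToGlobal (q : ℕ))
    (hL : ∀ N ∈ L.carrier, ∃ F : IntermediateField ℚ (AlgebraicClosure ℚ),
      F.IsUnramifiedOutside S ∧ F.fixingSubgroup ≤ N)
    (hL' : ∀ F : IntermediateField ℚ (AlgebraicClosure ℚ), FiniteDimensional ℚ F →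
      ∃ N ∈ L'.carrier, ∀ γ ∈ N, localGaloisToGlobal (q : ℕ) γ ∈ F.fixingSubgroup)
    (htriv : ∃ N ∈ L.carrier, ∀ s ∈ N, ∀ a, ρ s a = a) {p : ℕ} (hp : 0 < p)
    (hpA : ∀ a : A, p • a = 0) (x : H2 L ρ) : φ.h2 x = 0 := by
  obtain ⟨c, rfl⟩ := H2.mk_surjective L ρ x
  rw [PairHom.h2_mk, H2.mk_eq_zero]
  have hc := mem_Z2'.1 c.2
  obtain ⟨⟨N₀, hN₀, hcN₀⟩, hcoc⟩ := hc
  obtain ⟨N₁, hN₁, hρN₁⟩ := htriv
  obtain ⟨N₂, hN₂, h20, h21⟩ := L.directed' N₀ hN₀ N₁ hN₁
  obtain ⟨F₀, hF₀, hF₀N⟩ := hL N₂ hN₂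
  set r := localGaloisToGlobal (q : ℕ) with hrdef
  have hr : ∀ τ x, (padicEmbedding (q : ℕ)).toRingHom (r τ x) =
      τ ((padicEmbedding (q : ℕ)).toRingHom x) := fun τ x =>
    padicEmbedding_localGaloisToGlobal (q : ℕ) τ x
  -- a normal field
  let F := IntermediateField.normalClosure ℚ F₀ (AlgebraicClosure ℚ)
  have hF : F.IsUnramifiedOutside S := IsUnramifiedOutside.normalClosure hF₀
  have hFnorm : F.fixingSubgroup.Normal := fixing_normal _ (normalClosure.normal _ _ _)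
  have hFN : F.fixingSubgroup ≤ N₂ :=
    (IntermediateField.fixingSubgroup_antitone (IntermediateField.le_normalClosure F₀)).trans hF₀N
  have hFfin : F.fixingSubgroup.FiniteIndex := fixing_finiteIndex F hF.1
  let N : Subgroup (Gq q) := F.fixingSubgroup.comap r
  have hNnorm : N.Normal := hFnorm.comap r
  have hNfin : N.FiniteIndex := by
    constructor
    show (F.fixingSubgroup.comap r).index ≠ 0
    rw [Subgroup.index_comap]
    exact ne_zero_of_dvd_ne_zero hFfin.index_ne_zero (Subgroup.relIndex_dvd_index_of_normal _ _)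
  set n := N.index with hn
  have hn0 : n ≠ 0 := hNfin.index_ne_zero
  -- the big field
  set m : ℕ := (q : ℕ) ^ (n * p) - 1 with hm
  have hqn : 1 < (q : ℕ) ^ (n * p) := Nat.one_lt_pow (Nat.mul_ne_zero hn0 hp.ne') q.2.one_lt
  have hm0 : 0 < m := by omega
  have hmq : m.Coprime q := by
    rw [Nat.coprime_comm, Nat.Prime.coprime_iff_not_dvd q.2]
    intro hdvd
    have h1 : (q : ℕ) ∣ (q : ℕ) ^ (n * p) := dvd_pow_self _ (Nat.mul_ne_zero hn0 hp.ne')
    have h2 : (q : ℕ) ∣ 1 := by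
      have h3 := Nat.dvd_sub h1 hdvd
      have h4 : (q : ℕ) ^ (n * p) - m = 1 := by omega
      rwa [h4] at h3
    exact q.2.one_lt.ne' (Nat.dvd_one.1 h2)
  have hfd1 := hF.1
  have hfd2 := rootF_finite hm0
  have hnm1 : @Normal ℚ F _ _ F.algebra' := normalClosure.normal _ _ _
  have hnm2 : @Normal ℚ (rootF m) _ _ (rootF m).algebra' := normal_conv.2 (rootF_normal m)
  let F' := F ⊔ rootF m
  have hF'fd : FiniteDimensional ℚ F' := IntermediateField.finiteDimensional_sup F (rootF m)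
  have hF'nm : @Normal ℚ F' _ _ F'.algebra' :=
    @IntermediateField.normal_sup ℚ (AlgebraicClosure ℚ) _ _ _ F (rootF m) hnm1 hnm2
  have hF'nm' : Normal ℚ F' := normal_conv.1 hF'nm
  have hAq := liesOver_padic (q : ℕ)
  have hF'in : (padicPlace (q : ℕ)).inertiaSubgroupIn ℚ ≤ F'.fixingSubgroup := by
    rw [IntermediateField.fixingSubgroup_sup]
    exact le_inf (hF.2 q hqS _ hAq) (rootF_inertia hm0 q.2 hmq hAq)
  obtain ⟨σ₀, g, hσ₀, hg⟩ := exists_frob_loc (padicEmbedding (q : ℕ)).toRingHom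
    mem_nonunits_padic hAq r hr F'
  let N' : Subgroup (Gq q) := F'.fixingSubgroup.comap r
  have hN'norm : N'.Normal := (fixing_normal F' hF'nm).comap r
  have hNN' : N' ≤ N := Subgroup.comap_mono (IntermediateField.fixingSubgroup_antitone le_sup_left)
  have hgen : ∀ γ, ∃ j : ℕ, (g ^ j)⁻¹ * γ ∈ N' := fun γ =>
    procyc (padicEmbedding (q : ℕ)).toRingHom mem_nonunits_padic hAq r hr F' hF'in hσ₀ hg γ
  have hord : ∀ j : ℕ, g ^ j ∈ N' → n * p ∣ j := by
    intro j hj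
    have : NeZero m := ⟨hm0.ne'⟩
    obtain ⟨ζ, hζ⟩ := HasEnoughRootsOfUnity.exists_primitiveRoot (AlgebraicClosure ℚ) m
    have hζF : ∀ i : ℕ, ζ ^ i ∈ F' := fun i => pow_mem
      ((le_sup_right : rootF m ≤ F') (IntermediateField.subset_adjoin _ _ hζ.pow_eq_one)) i
    have h1 : ∀ i : ℕ, r (g ^ i) ζ = ζ ^ ((q : ℕ) ^ i) := by
      intro i
      induction i with
      | zero => simp
      | succ i ih =>
        rw [pow_succ', map_mul, AlgEquiv.mul_apply, ih, hg _ (hζF _), map_pow,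
          Fermat.Agent.QuadRep.frobenius_smul_root q.2 hAq hσ₀ hm0 hmq ζ hζ.pow_eq_one, ← pow_mul,
          ← pow_succ']
    have h2 : r (g ^ j) ζ = ζ := by
      have h3 : r (g ^ j) ∈ F'.fixingSubgroup := hj
      rw [IntermediateField.mem_fixingSubgroup_iff] at h3
      have := h3 (ζ ^ 1) (hζF 1)
      rwa [pow_one] at this
    rw [h1] at h2
    have h3 : m ∣ (q : ℕ) ^ j - 1 := by
      rw [← hζ.pow_eq_one_iff_dvd]
      have h4 : ζ ^ ((q : ℕ) ^ j - 1) * ζ = 1 * ζ := by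
        rw [← pow_succ, Nat.sub_add_cancel (Nat.one_le_pow _ _ q.2.pos), h2, one_mul]
      exact mul_right_cancel₀ (hζ.ne_zero hm0.ne') h4
    exact dvd_of_pow_sub_one_dvd q.2.one_lt h3
  obtain ⟨b, hbN, hb⟩ := exists_cobound (ρ.comp r) (fun γ γ' => (c : GQ → GQ → A) (r γ) (r γ'))
    (fun γ γ' γ'' => by
      simp only [map_mul]
      exact hcoc (r γ) (r γ') (r γ'')) N N'
    (fun γ γ' s hs t ht => by
      simp only [map_mul]
      exact hcN₀ _ _ _ (h20 (hFN hs)) _ (h20 (hFN ht)))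
    (fun s hs a => hρN₁ _ (h21 (hFN hs)) a) hNN' hpA hgen (n := n) (N.pow_index_mem g) hord
  refine ⟨fun γ => φ.f (b γ), ?_, ?_⟩
  · obtain ⟨M, hM, hMF⟩ := hL' F' hF'fd
    refine ⟨M, hM, fun γ s hs => ?_⟩
    show φ.f (b (γ * s)) = φ.f (b γ)
    rw [hbN γ s (hMF s hs)]
  · rw [PairHom.coe_z2]
    ext γ γ'
    have h1 := congrFun (congrFun hb γ) γ'
    rw [d1_apply] at h1
    rw [d1_apply, PairHom.c2_apply, hφ, ← h1, map_add, map_sub]
    congr 2
    have h2 := φ.comm γ (b γ')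
    rw [hφ] at h2
    exact h2.symm

/-- version for the concrete levels `sL S` and `allL.comap r`. -/
theorem unr_sL {S : Finset Nat.Primes} {q : Nat.Primes} (hqS : q ∉ S) {A B : Type*}
    [AddCommGroup A] [Finite A] [AddCommGroup B] {ρ : Act GQ A} {σ : Act (Gq q) B}
    (φ : PairHom (sL S) ρ (allL.comap (localGaloisToGlobal (q : ℕ))) σ)
    (hφ : φ.r = localGaloisToGlobal (q : ℕ)) (hsm : Smooth (sL S) ρ) {p : ℕ} (hp : 0 < p)
    (hpA : ∀ a : A, p • a = 0) (x : H2 (sL S) ρ) : φ.h2 x = 0 := by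
  refine unr_h2_eq_zero hqS φ hφ ?_ ?_ ?_ hp hpA x
  · rintro _ ⟨_, F, hF, rfl⟩
    exact ⟨F, hF, le_rfl⟩
  · intro F hF
    obtain ⟨N, hN, hle⟩ := exists_allL_le F hF
    exact ⟨_, ⟨N, hN, rfl⟩, fun γ hγ => hle hγ⟩
  · obtain ⟨N, hN, h⟩ := hsm.exists_level (Set.toFinite (Set.univ : Set A))
    exact ⟨N, hN, fun s hs a => h a (Set.mem_univ a) s hs⟩

end Fermat.Agent.PTC
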