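import Fermat.Agent.PTC.Glue

/-!
# From `PTHyp` to the frozen statement
-/

set_option autoImplicit false

namespace Fermat.Agent.PTC

open Fermat.Agent.PT CategoryTheory

local instance isAlgebraicQbar_fz : Algebra.IsAlgebraic ℚ (AlgebraicClosure ℚ) :=
  AlgebraicClosure.isAlgebraic ℚ
local instance isAlgClosureQbar_fz : IsAlgClosure ℚ (AlgebraicClosure ℚ) :=
  ⟨inferInstance, inferInstance⟩
local instance normalQbar_fz : Normal ℚ (AlgebraicClosure ℚ) :=
  IsAlgClosure.normal ℚ (AlgebraicClosure ℚ)
local instance isGaloisQbar_fz : IsGalois ℚ (AlgebraicClosure ℚ) := ⟨⟩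

/-- an open subgroup is the fixing subgroup of its fixed field -/
lemma fixing_fixed_Q (H : Subgroup GQ) (F : IntermediateField ℚ (AlgebraicClosure ℚ))
    (hF : FiniteDimensional ℚ F) (h : F.fixingSubgroup ≤ H) :
    (IntermediateField.fixedField H).fixingSubgroup = H := by
  have h1 : IsOpen (F.fixingSubgroup : Set GQ) := IntermediateField.fixingSubgroup_isOpen F
  have h2 : IsOpen (H : Set GQ) := Subgroup.isOpen_mono h h1
  exact InfiniteGalois.fixingSubgroup_fixedField ⟨H, Subgroup.isClosed_of_isOpen H h2⟩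

variable {p : ℕ} [Fact p.Prime] {S : Finset Nat.Primes}

lemma smooth_repAct (M : Rep (ZMod p) GQ) [FiniteDimensional (ZMod p) M]
    (hsm : ∀ m : M, ∃ F : IntermediateField ℚ (AlgebraicClosure ℚ), FiniteDimensional ℚ F ∧
      ∀ s ∈ F.fixingSubgroup, M.ρ s m = m)
    (hMur : ∀ q : Nat.Primes, q ∉ S → ∀ A : ValuationSubring (AlgebraicClosure ℚ),
      A.LiesOverPrime (q : ℕ) → ∀ g ∈ A.inertiaSubgroupIn ℚ, M.ρ g = 1) :
    Smooth (sL S) (repAct M) := by
  have hfin : Finite M := Module.finite_of_finite (ZMod p)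
  choose F hF hF2 using hsm
  have hFd : FiniteDimensional ℚ (⨆ m, F m : IntermediateField ℚ (AlgebraicClosure ℚ)) :=
    IntermediateField.finiteDimensional_iSup_of_finite
  set H : Subgroup GQ := M.ρ.ker with hH
  have hle : (⨆ m, F m : IntermediateField ℚ (AlgebraicClosure ℚ)).fixingSubgroup ≤ H := by
    intro s hs
    rw [hH, MonoidHom.mem_ker]
    refine LinearMap.ext fun m => ?_
    exact hF2 m s (IntermediateField.fixingSubgroup_antitone (le_iSup F m) hs)
  have hfix := fixing_fixed_Q H _ hFd hle
  have hur : (IntermediateField.fixedField H).IsUnramifiedOutside S := by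
    constructor
    · have h1 : IntermediateField.fixedField H ≤
          (⨆ m, F m : IntermediateField ℚ (AlgebraicClosure ℚ)) := by
        intro x hx
        rw [← InfiniteGalois.fixedField_fixingSubgroup
          (⨆ m, F m : IntermediateField ℚ (AlgebraicClosure ℚ))]
        rw [IntermediateField.mem_fixedField_iff] at hx ⊢
        exact fun s hs => hx s (hle hs)
      exact FiniteDimensional.of_injective (IntermediateField.inclusion h1).toLinearMap
        (IntermediateField.inclusion_injective h1)
    · intro q hq A hA g hg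
      rw [hfix]
      exact hMur q hq A hA g hg
  obtain ⟨N, hN, hN2⟩ := exists_sL_le hur
  intro m
  refine ⟨N, hN, fun s hs => ?_⟩
  have h3 : s ∈ H := by
    rw [← hfix]
    exact hN2 hs
  rw [hH, MonoidHom.mem_ker] at h3
  rw [repAct_apply, h3]
  rfl

/-- the frozen dual is the dual of the formal theory -/
noncomputable def dualEquiv (M : Rep (ZMod p) GQ) :
    EEquiv (repAct (M.dualTwist (ExtCitation.cycloChar p))) (dualAct (muA p) (repAct M)) where
  e := (AddMonoidHom.toZModLinearMapEquiv p (M := M) (M₁ := ZMod p)).symm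
  comm g f := by
    apply AddMonoidHom.ext
    intro a
    rfl

section main

variable (hp2 : p ≠ 2) (M : Rep (ZMod p) GQ)

include hp2 in
lemma card_sha₂ : Nonempty (groupCohomology.sha₂ S M ≃ (ptd S).sha2 (repAct M)) := by
  refine card_sub_eq (groupCohomology.continuousH2Sπ S M) (H2.mk (sL S) (repAct M))
    (Submodule.mkQ_surjective _) (H2.mk_surjective _ _) (cocEquiv₂ S M) (π₂_eq_iff S M)
    (fun x => x ∈ groupCohomology.sha₂ S M) (fun y => y ∈ (ptd S).sha2 (repAct M)) fun a => ?_
  rw [PTData.mem_sha2]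
  have h1 : groupCohomology.continuousH2Sπ S M a ∈ groupCohomology.sha₂ S M ↔
      ∀ v : ExtCitation.extArithIndex S, groupCohomology.locRes₂S S M
        (ExtCitation.extArithLoc S v) (groupCohomology.continuousH2Sπ S M a) = 0 := by
    rw [groupCohomology.sha₂, LinearMap.mem_ker, funext_iff]
    rfl
  rw [h1]
  constructor
  · intro h q
    exact (loc_h2_eq_zero_iff S M q a).2 ((locRes₂S_eq_zero_iff S M _ a).1 (h (Sum.inr q)))
  · rintro h (v | q)
    · rw [locRes₂S_eq_zero_iff]
      have := arch_finite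
      have hC := arch_card (p := p) hp2
      obtain ⟨F, hF, hF2⟩ := a.2.2
      refine ⟨fun g => ((Nat.card ↥ExtCitation.archimedeanDecomposition : ZMod p)⁻¹ •
        ∑ᶠ j, (a : GQ × GQ → M) (ExtCitation.archimedeanLoc g, ExtCitation.archimedeanLoc j)),
        ⟨F, hF.1, fun g s hs => ?_⟩, ?_⟩
      · show _ • _ = _ • _
        congr 1
        apply finsum_congr
        intro j
        have := hF2 (ExtCitation.archimedeanLoc g) (ExtCitation.archimedeanLoc j)
          (ExtCitation.archimedeanLoc s) 1 hs (one_mem _)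
        rw [mul_one] at this
        exact this
      · exact h2_average (Rep.res ExtCitation.archimedeanLoc M) hC
          (fun g h => (a : GQ × GQ → M) (ExtCitation.archimedeanLoc g,
            ExtCitation.archimedeanLoc h)) fun g h j => by
          have := (groupCohomology.mem_cocycles₂_iff _).1 a.2.1 (ExtCitation.archimedeanLoc g)
            (ExtCitation.archimedeanLoc h) (ExtCitation.archimedeanLoc j)
          rw [← map_mul, ← map_mul] at this
          exact this
    · exact (locRes₂S_eq_zero_iff S M _ a).2 ((loc_h2_eq_zero_iff S M q a).1 (h q))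

include hp2 in
lemma card_sha₁ : Nonempty (groupCohomology.sha₁ S M ≃ (ptd S).sha1 (repAct M)) := by
  have h0 := card_sub_eq (π₁ S M) (H1.mk (sL S) (repAct M))
    (π₁_surjective S M) (H1.mk_surjective _ _) (cocEquiv₁ S M) (π₁_eq_iff S M)
    (fun x => x.1 ∈ groupCohomology.sha₁ S M) (fun y => y ∈ (ptd S).sha1 (repAct M)) fun a => ?_
  · obtain ⟨Φ⟩ := h0
    refine ⟨Equiv.trans ?_ Φ⟩
    exact
      { toFun := fun x => ⟨⟨x.1, x.2.1⟩, x.2⟩
        invFun := fun x => ⟨x.1.1, x.2⟩
        left_inv := fun _ => rfl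
        right_inv := fun _ => rfl }
  · rw [PTData.mem_sha1]
    have h1 : (π₁ S M a).1 ∈ groupCohomology.sha₁ S M ↔
        ∀ v : ExtCitation.extArithIndex S, (groupCohomology.locRes (ExtCitation.extArithLoc S)
          M v).hom ((groupCohomology.H1π M).hom a.1) = 0 := by
      unfold groupCohomology.sha₁
      rw [Submodule.mem_inf, LinearMap.mem_ker, funext_iff]
      constructor
      · exact fun h v => h.2 v
      · exact fun h => ⟨(π₁ S M a).2, h⟩
    rw [h1]
    constructor
    · intro h q
      exact (loc_h1_eq_zero_iff S M q a).2 ((locRes_eq_zero_iff M _ (Sum.inr q) a.1).1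
        (h (Sum.inr q)))
    · rintro h (v | q)
      · rw [locRes_eq_zero_iff]
        have := arch_finite
        have hC := arch_card (p := p) hp2
        exact h1_average (Rep.res ExtCitation.archimedeanLoc M) hC
          (fun g => a.1 (ExtCitation.archimedeanLoc g)) fun g h => by
          have := (groupCohomology.mem_cocycles₁_iff _).1 a.1.2 (ExtCitation.archimedeanLoc g)
            (ExtCitation.archimedeanLoc h)
          rw [← map_mul] at this
          exact this
      · exact (locRes_eq_zero_iff M _ (Sum.inr q) a.1).2 ((loc_h1_eq_zero_iff S M q a).1 (h q))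

end main

/-- linear algebra: two finite spaces of the same cardinality have a perfect pairing -/
lemma exists_pairing (V W : Type) [AddCommGroup V] [AddCommGroup W] [Module (ZMod p) V]
    [Module (ZMod p) W] [Finite V] [Finite W] (h : Nat.card V = Nat.card W) :
    ∃ B : V →ₗ[ZMod p] W →ₗ[ZMod p] ZMod p,
      (∀ y, (∀ x, B y x = 0) → y = 0) ∧ (∀ x, (∀ y, B y x = 0) → x = 0) := by
  have hV : Module.Finite (ZMod p) V := Module.Finite.of_finite
  have hW : Module.Finite (ZMod p) W := Module.Finite.of_finite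
  have h1 : Module.finrank (ZMod p) V = Module.finrank (ZMod p) (Module.Dual (ZMod p) W) := by
    rw [Subspace.dual_finrank_eq]
    have : Fintype V := Fintype.ofFinite V
    have : Fintype W := Fintype.ofFinite W
    rw [Nat.card_eq_fintype_card, Nat.card_eq_fintype_card,
      Module.card_eq_pow_finrank (K := ZMod p) (V := V),
      Module.card_eq_pow_finrank (K := ZMod p) (V := W), ZMod.card] at h
    exact Nat.pow_right_injective (Fact.out (p := p.Prime)).two_le h
  let e : V ≃ₗ[ZMod p] Module.Dual (ZMod p) W := LinearEquiv.ofFinrankEq _ _ h1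
  refine ⟨e.toLinearMap, fun y hy => ?_, fun x hx => ?_⟩
  · have : e y = 0 := LinearMap.ext hy
    exact e.map_eq_zero_iff.1 this
  · rw [← Module.forall_dual_apply_eq_zero_iff (ZMod p) x]
    intro φ
    have := hx (e.symm φ)
    rwa [LinearEquiv.coe_coe, LinearEquiv.apply_symm_apply] at this

/-- **S55 from the hypotheses of the formal theorem** -/
theorem frozen_of_PTHyp (hp2 : p ≠ 2)
    (H : PTHyp (ptd S) p (muA p) (muW p) (eAt p S))
    (M : Rep (ZMod p) GQ)
    [FiniteDimensional (ZMod p) M]
    (hsm : ∀ m : M, ∃ F : IntermediateField ℚ (AlgebraicClosure ℚ), FiniteDimensional ℚ F ∧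
      ∀ s ∈ F.fixingSubgroup, M.ρ s m = m)
    (hMur : ∀ q : Nat.Primes, q ∉ S → ∀ A : ValuationSubring (AlgebraicClosure ℚ),
      A.LiesOverPrime (q : ℕ) → ∀ g ∈ A.inertiaSubgroupIn ℚ, M.ρ g = 1) :
    ∃ B : groupCohomology.sha₁ S (M.dualTwist (ExtCitation.cycloChar p)) →ₗ[ZMod p]
        groupCohomology.sha₂ S M →ₗ[ZMod p] ZMod p,
      (∀ y, (∀ x, B y x = 0) → y = 0) ∧ (∀ x, (∀ y, B y x = 0) → x = 0) := by
  have hfin : Finite M := Module.finite_of_finite (ZMod p)
  have hρ := smooth_repAct M hsm hMur
  have ha : ∀ a : M, p • a = 0 := fun a => by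
    rw [← Nat.cast_smul_eq_nsmul (ZMod p), CharP.cast_eq_zero, zero_smul]
  obtain ⟨h1, h2, h3⟩ := formal_duality H hρ ha
  obtain ⟨Φ₂⟩ := card_sha₂ (S := S) hp2 M
  obtain ⟨Φ₁⟩ := card_sha₁ (S := S) hp2 (M.dualTwist (ExtCitation.cycloChar p))
  have h4 := (ptd S).card_sha1_congr (dualEquiv M)
  have hpos : 0 < Nat.card ((ptd S).sha1 (dualAct (muA p) (repAct M))) := Nat.card_pos
  have h5 : Finite ((ptd S).sha1 (repAct (M.dualTwist (ExtCitation.cycloChar p)))) :=
    Nat.finite_of_card_ne_zero (by rw [h4]; exact hpos.ne')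
  have h6 : Finite (groupCohomology.sha₁ S (M.dualTwist (ExtCitation.cycloChar p))) :=
    Finite.of_equiv _ Φ₁.symm
  have h7 : Finite (groupCohomology.sha₂ S M) := Finite.of_equiv _ Φ₂.symm
  refine exists_pairing _ _ ?_
  rw [Nat.card_congr Φ₁, Nat.card_congr Φ₂, h4, h3]

end Fermat.Agent.PTC
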