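import Fermat.Agent.PTC.RecEmb
import Fermat.Agent.PTC.Bridge
import Fermat.Agent.PTC.Unr

/-!
# Reciprocity for `H²(G_S, μ_p)`
-/

set_option autoImplicit false

open NumberField Module

namespace Fermat.Agent.PTC

open Fermat.Agent.PT Fermat.Agent.CFT Fermat.Agent.CFT6 Fermat.Agent.PTLocal

attribute [local instance] isGalois_qbar

section general

variable {G Γ : Type*} [Group G] [Group Γ] {A B : Type*} [AddCommGroup A] [AddCommGroup B]
  {X X' : Type*}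

/-- a morphism of pairs induces a morphism between function modules -/
def mapPair {L : Levels G} {ρ : Act G A} {L' : Levels Γ} {σ : Act Γ B} (φ : PairHom L ρ L' σ)
    (ξ : G →* Equiv.Perm X) :
    PairHom L (mapAct ξ ρ) L' (mapAct (ξ.comp φ.r) σ) where
  r := φ.r
  f :=
    { toFun := fun f x => φ.f (f x)
      map_zero' := by ext x; simp
      map_add' := fun f f' => by ext x; simp }
  lev := φ.lev
  comm γ f := by
    ext x
    show φ.f (ρ (φ.r γ) (f (ξ (φ.r γ)⁻¹ x))) = σ γ (φ.f (f (ξ (φ.r γ⁻¹) x)))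
    rw [φ.comm, map_inv φ.r]

lemma mapPair_constHom {L : Levels G} {ρ : Act G A} {L' : Levels Γ} {σ : Act Γ B}
    (φ : PairHom L ρ L' σ) (ξ : G →* Equiv.Perm X) (x : H2 L ρ) :
    (mapPair φ ξ).h2 ((constHom ξ ρ).h2 L x) = (constHom (ξ.comp φ.r) σ).h2 L' (φ.h2 x) := by
  rw [EHom.h2, EHom.h2, ← PairHom.h2_comp, ← PairHom.h2_comp]
  exact PairHom.h2_congr (fun _ => rfl) (fun _ => rfl) x

lemma constHom_transfer {L : Levels G} {ρ : Act G A} {ξ : G →* Equiv.Perm X}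
    {ξ' : G →* Equiv.Perm X'} (π : X' → X) (hπ : ∀ g x, π (ξ' g x) = ξ g (π x)) (x : H2 L ρ)
    (h : (constHom ξ ρ).h2 L x = 0) : (constHom ξ' ρ).h2 L x = 0 := by
  have h1 : (constHom ξ' ρ).h2 L x = (pullHom ρ π hπ).h2 L ((constHom ξ ρ).h2 L x) := by
    rw [← EHom.h2_comp]
    exact EHom.h2_congr L (fun _ => rfl) x
  rw [h1, h, map_zero]

end general

/-- the group `Gal(ℚ̄/ℚ)` with all levels is of Galois type -/
noncomputable def lgG (k Ω : Type) [Field k] [Field Ω] [Algebra k Ω] [IsGalois k Ω] :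
    LGal k Ω (galLevels k Ω) where
  j := MonoidHom.id _
  ker_le N _ g hg := by
    have : g = 1 := hg
    rw [this]; exact N.one_mem
  lev := by
    rintro _ ⟨F, hF, hn, rfl⟩
    exact ⟨F, hF, fun σ hσ => ⟨σ, hσ, rfl⟩⟩
  cof F hF := ⟨_, ⟨IntermediateField.normalClosure k F Ω, inferInstance, inferInstance, rfl⟩,
    fun g hg => IntermediateField.fixingSubgroup_antitone
      (IntermediateField.le_normalClosure F) hg⟩

lemma h90_chi {k Ω : Type} [Field k] [Field Ω] [Algebra k Ω] [IsGalois k Ω] {G : Type} [Group G]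
    {L : Levels G} (hG : LGal k Ω L) {p : ℕ} [hp : Fact p.Prime] {χ : Chi p L} (hχ : χ ≠ 0)
    (x : H1 L (mapAct (xi χ) hG.act)) : x = 0 := by
  have hξ := levelTrivial_xi χ
  have hbij := sh_h1_bijective (L := L) (ρ := hG.act) hξ hG.smooth (isTrans_xi hχ)
  apply hbij.1
  exact ((hG.sub _ (isOpenSub_stab hξ 0)).h90 _).trans (map_zero _).symm

/-- all levels of `Gal(ℚ̄/ℚ)` -/
noncomputable abbrev LQ : Levels (Qb ≃ₐ[ℚ] Qb) := galLevels ℚ Qb

/-- the action on `ℚ̄ˣ` -/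
noncomputable abbrev ρQ : Act (Qb ≃ₐ[ℚ] Qb) (Additive Qbˣ) := galAct ℚ Qb

/-- localisation of `ℚ̄ˣ` -/
noncomputable def φq (q : Nat.Primes) :
    PairHom LQ ρQ (qLevels (q : ℕ)) (galAct ℚ_[(q : ℕ)] (Cq q)) where
  r := localGaloisToGlobal (q : ℕ)
  f := MonoidHom.toAdditive (Units.map ((padicEmbedding (q : ℕ)).toRingHom : Qb →* Cq q))
  lev N hN := ⟨_, ⟨N, hN, rfl⟩, fun _ h => h⟩
  comm γ a := by
    apply Additive.toMul.injective
    apply Units.ext
    exact padicEmbedding_localGaloisToGlobal (q : ℕ) γ _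

lemma φq_f (q : Nat.Primes) (a : Additive Qbˣ) :
    ((Additive.toMul ((φq q).f a) : (Cq q)ˣ) : Cq q) =
      padicEmbedding (q : ℕ) ((Additive.toMul a : Qbˣ) : Qb) := rfl

/-- ABHN hypothesis -/
def AbhnHyp (p : ℕ) : Prop := ∀ (U : Subgroup (Qb ≃ₐ[ℚ] Qb)), IsOpenSub LQ U →
  ∀ β : H2 LQ (mapAct (cosetAct U) ρQ), p • β = 0 →
    (∀ q : Nat.Primes, (mapPair (φq q) (cosetAct U)).h2 β = 0) → β = 0

lemma exists_rat (a : H0 ρQ) : ∃ x : ℚ, x ≠ 0 ∧
    ((Additive.toMul (a : Additive Qbˣ) : Qbˣ) : Qb) = algebraMap ℚ Qb x := by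
  have h1 : ((Additive.toMul (a : Additive Qbˣ) : Qbˣ) : Qb) ∈ (⊥ : IntermediateField ℚ Qb) := by
    rw [← InfiniteGalois.fixedField_fixingSubgroup (⊥ : IntermediateField ℚ Qb),
      IntermediateField.mem_fixedField_iff]
    intro f _
    have h2 := mem_H0.1 a.2 f
    exact congrArg (fun a => ((Additive.toMul a : Qbˣ) : Qb)) h2
  obtain ⟨x, hx⟩ := IntermediateField.mem_bot.1 h1
  refine ⟨x, ?_, hx.symm⟩
  rintro rfl
  rw [map_zero] at hx
  exact (Additive.toMul (a : Additive Qbˣ) : Qbˣ).ne_zero hx.symm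

/-- the character attached to a cyclic extension of degree `p` -/
lemma exists_chi_field {p : ℕ} [hp : Fact p.Prime] (L : IntermediateField ℚ Qb)
    (hfd : FiniteDimensional ℚ L) (hN : @Normal ℚ L _ _ L.algebra')
    (hL : @finrank ℚ L _ _ L.algebra'.toModule = p) : ∃ χ : Chi p LQ, χ ≠ 0 ∧
      ∀ g, (χ : (Qb ≃ₐ[ℚ] Qb) → ZMod p) g = 0 ↔ g ∈ L.fixingSubgroup := by
  have hn : L.fixingSubgroup.Normal := fixing_normal L hN
  have hidx : L.fixingSubgroup.index = p := by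
    rw [← IntermediateField.finrank_eq_fixingSubgroup_index]
    exact hL
  let e : (Qb ≃ₐ[ℚ] Qb) ⧸ L.fixingSubgroup ≃* Multiplicative (ZMod p) :=
    mulEquivOfPrimeCardEq (p := p) hidx
      (by rw [Nat.card_congr Multiplicative.toAdd, Nat.card_zmod])
  let φ : (Qb ≃ₐ[ℚ] Qb) →* Multiplicative (ZMod p) :=
    e.toMonoidHom.comp (QuotientGroup.mk' L.fixingSubgroup)
  have hφ : ∀ s, φ s = 1 ↔ s ∈ L.fixingSubgroup := by
    intro s
    show e ((QuotientGroup.mk' L.fixingSubgroup) s) = 1 ↔ _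
    rw [← map_one e, e.injective.eq_iff]
    exact QuotientGroup.eq_one_iff s
  refine ⟨⟨fun g => Multiplicative.toAdd (φ g), ?_⟩, ?_, fun g => ?_⟩
  · rw [mem_Z1']
    refine ⟨⟨L.fixingSubgroup, ⟨L, hfd, hN, rfl⟩, fun g s hs => ?_⟩, fun g h => ?_⟩
    · show Multiplicative.toAdd (φ (g * s)) = Multiplicative.toAdd (φ g)
      rw [map_mul, (hφ s).2 hs, mul_one]
    · show Multiplicative.toAdd (φ (g * h)) = _
      rw [map_mul, toAdd_mul, trivAct_apply]
  · intro h0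
    have h1 : ∀ g, φ g = 1 := fun g => congrFun (congrArg Subtype.val h0) g
    have hs : Function.Surjective φ :=
      e.surjective.comp (QuotientGroup.mk'_surjective L.fixingSubgroup)
    obtain ⟨g, hg⟩ := hs (Multiplicative.ofAdd 1)
    rw [h1] at hg
    have h2 : (0 : ZMod p) = 1 := congrArg Multiplicative.toAdd hg
    exact zero_ne_one h2
  · exact hφ g

section main

variable {p : ℕ} [hp : Fact p.Prime]

lemma zetaHom_mu {ζ : Qb} (hζ : IsPrimitiveRoot ζ p) (g : GQ) (a : ZMod p) :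
    zetaHom hζ (muA p g a) = ρQ g (zetaHom hζ a) := by
  apply Additive.toMul.injective
  apply Units.ext
  show ((Additive.toMul (zetaHom hζ (muA p g a)) : Qbˣ) : Qb) =
    g ((Additive.toMul (zetaHom hζ a) : Qbˣ) : Qb)
  rw [zetaHom_apply, zetaHom_apply, map_pow, cyclo_spec p g hζ.pow_eq_one, ← pow_mul, muA,
    mulAct_apply, ZMod.val_mul]
  have h := pow_mod_orderOf ζ (((ExtCitation.cycloChar p g : (ZMod p)ˣ) : ZMod p).val * a.val)
  rwa [← hζ.eq_orderOf] at h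

/-- the map `μ_p → ℚ̄ˣ` -/
noncomputable def muHom {ζ : Qb} (hζ : IsPrimitiveRoot ζ p) : EHom (muA p) ρQ where
  f := zetaHom hζ
  comm := zetaHom_mu hζ

variable (p) in
/-- inflation to all levels -/
noncomputable def inflMu (S : Finset Nat.Primes) : PairHom (sL S) (muA p) LQ (muA p) where
  r := MonoidHom.id _
  f := AddMonoidHom.id _
  lev := by
    rintro _ ⟨hn, F, hF, rfl⟩
    exact ⟨_, ⟨F, hF.1, normal_of_fixing_normal F hn, rfl⟩, fun _ h => h⟩
  comm _ _ := rfl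

/-- pulling back a character -/
noncomputable def chiPull (χ : Chi p LQ) (q : Nat.Primes) : Chi p (qLevels (q : ℕ)) :=
  ⟨fun γ => (χ : (Qb ≃ₐ[ℚ] Qb) → ZMod p) (localGaloisToGlobal (q : ℕ) γ), by
    rw [mem_Z1']
    obtain ⟨N, hN, h⟩ := χ.2.1
    refine ⟨⟨_, ⟨N, hN, rfl⟩, fun g s hs => ?_⟩, fun g h => ?_⟩
    · show (χ : (Qb ≃ₐ[ℚ] Qb) → ZMod p) (localGaloisToGlobal (q : ℕ) (g * s)) =
        (χ : (Qb ≃ₐ[ℚ] Qb) → ZMod p) (localGaloisToGlobal (q : ℕ) g)
      rw [map_mul, h _ _ hs]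
    · show (χ : (Qb ≃ₐ[ℚ] Qb) → ZMod p) (localGaloisToGlobal (q : ℕ) (g * h)) = _
      rw [map_mul, chi_mul, trivAct_apply]⟩

lemma kappa_injective {q : Nat.Primes} {τ : Act (Gq q) (ZMod p)} {L' : Levels (Gq q)}
    (hL' : L' = qLevels (q : ℕ)) {i : ZMod p →+ Additive (Cq q)ˣ} (hi : Function.Injective i)
    (hc : ∀ g a, i (τ g a) = (lgalQ' (q : ℕ)).act g (i a))
    (κ : PairHom L' τ (qLevels (q : ℕ)) (galAct ℚ_[(q : ℕ)] (Cq q))) (hr : ∀ γ, κ.r γ = γ)
    (hf : ∀ a, κ.f a = i a) : Function.Injective κ.h2 := by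
  subst hL'
  have h1 : ∀ y, κ.h2 y = (kumMu (lgalQ' (q : ℕ)) hi hc).i.h2 (qLevels (q : ℕ)) y :=
    fun y => PairHom.h2_congr hr hf y
  intro y y' h
  rw [h1, h1] at h
  exact kumMu_h2_injective (lgalQ' (q : ℕ)) hi hc h

lemma sum_single_trivial {q : Nat.Primes} {χq : Chi p (qLevels (q : ℕ))} (hχq : χq = 0)
    (b : H0 (galAct ℚ_[(q : ℕ)] (Cq q))) :
    ∃ f : H0 (mapAct (xi χq) (galAct ℚ_[(q : ℕ)] (Cq q))),
      (sumHom (xi χq) (galAct ℚ_[(q : ℕ)] (Cq q))).h0 f = b := by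
  subst hχq
  refine ⟨⟨Pi.single 0 (b : Additive (Cq q)ˣ), ?_⟩, ?_⟩
  · rw [mem_H0_mapAct]
    intro g x
    have h1 : xi (0 : Chi p (qLevels (q : ℕ))) g x = x := by
      rw [xi_apply]
      show x + 0 = x
      rw [add_zero]
    rw [h1]
    by_cases hx : x = 0
    · subst hx
      rw [Pi.single_eq_same, mem_H0.1 b.2]
    · rw [Pi.single_eq_of_ne hx, map_zero]
  · apply Subtype.ext
    show ∑ x : ZMod p, (Pi.single 0 (b : Additive (Cq q)ˣ) : ZMod p → Additive (Cq q)ˣ) x = b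
    simp

/-- **Reciprocity**, modulo Albert–Brauer–Hasse–Noether. -/
theorem recip_of_abhn (hp2 : p ≠ 2) (habhn : AbhnHyp p) {S : Finset Nat.Primes}
    (hpS : ExtCitation.pPrime p ∈ S) (x : H2 (sL S) (muA p)) (v : ↥S)
    (hx : ∀ w : ↥S, w ≠ v → ((ptd S).loc w (muA p)).h2 x = 0) :
    ((ptd S).loc v (muA p)).h2 x = 0 := by
  obtain ⟨ζ, hζ⟩ := exists_zeta p
  -- the classes
  set ψ : ∀ q : Nat.Primes, PairHom (sL S) (muA p) (qLevels (q : ℕ))
    (galAct ℚ_[(q : ℕ)] (Cq q)) := fun q => (φq q).comp (((muHom hζ).pair LQ).comp (inflMu p S))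
    with hψ
  set β : H2 LQ ρQ := (muHom hζ).h2 LQ ((inflMu p S).h2 x) with hβ
  have hψβ : ∀ q, (φq q).h2 β = (ψ q).h2 x := by
    intro q
    rw [hψ, PairHom.h2_comp, PairHom.h2_comp]
  -- comparison with the localisations
  let κ : ∀ q : Nat.Primes, PairHom (allL.comap (localGaloisToGlobal (q : ℕ)))
      ((muA p).comp (localGaloisToGlobal (q : ℕ))) (qLevels (q : ℕ))
      (galAct ℚ_[(q : ℕ)] (Cq q)) := fun q =>
    { r := MonoidHom.id _
      f := (φq q).f.comp (zetaHom hζ)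
      lev := fun N hN => ⟨N, by rw [qLevels_eq]; exact hN, fun _ h => h⟩
      comm := fun γ a => by
        show (φq q).f (zetaHom hζ (muA p (localGaloisToGlobal (q : ℕ) γ) a)) =
          galAct ℚ_[(q : ℕ)] (Cq q) γ ((φq q).f (zetaHom hζ a))
        rw [zetaHom_mu]
        exact (φq q).comm γ _ }
  have hκ : ∀ w : ↥S, (ψ w.1).h2 x = (κ w.1).h2 (((ptd S).loc w (muA p)).h2 x) := by
    intro w
    refine Eq.trans ?_ (PairHom.h2_comp (κ w.1) ((ptd S).loc w (muA p)) x)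
    exact PairHom.h2_congr (fun _ => rfl) (fun _ => rfl) x
  have hpA : ∀ a : ZMod p, p • a = 0 := fun a => by
    rw [nsmul_eq_mul, CharP.cast_eq_zero, zero_mul]
  have hne : ∀ q : Nat.Primes, q ≠ v.1 → (ψ q).h2 x = 0 := by
    intro q hq
    by_cases hqS : q ∈ S
    · rw [hκ ⟨q, hqS⟩, hx ⟨q, hqS⟩ (fun h => hq (congrArg Subtype.val h))]
      exact map_zero (κ q).h2
    · refine unr_h2_eq_zero hqS (ψ q) rfl ?_ ?_ ?_ hp.out.pos hpA x
      · rintro _ ⟨_, F, hF, rfl⟩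
        exact ⟨F, hF, le_rfl⟩
      · intro F hF
        obtain ⟨N, hN, hle⟩ := exists_allL_le F hF
        exact ⟨_, by rw [qLevels_eq]; exact ⟨N, hN, rfl⟩, fun γ hγ => hle hγ⟩
      · obtain ⟨N, hN, h⟩ := muW_open p hpS
        exact ⟨N, hN, fun s hs a => muW_triv p s (h hs) a⟩
  -- the local group at `v`
  have hiv : Function.Injective ((φq v.1).f.comp (zetaHom hζ)) := by
    intro a b hab
    apply zetaHom_injective hζ
    apply Additive.toMul.injective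
    apply Units.ext
    apply (padicEmbedding ((v.1 : Nat.Primes) : ℕ)).injective
    have h1 := congrArg (fun t => ((Additive.toMul t : (Cq v.1)ˣ) : Cq v.1)) hab
    exact h1
  have hcv : ∀ g a, ((φq v.1).f.comp (zetaHom hζ))
      (((muA p).comp (localGaloisToGlobal ((v.1 : Nat.Primes) : ℕ))) g a) =
      (lgalQ' ((v.1 : Nat.Primes) : ℕ)).act g (((φq v.1).f.comp (zetaHom hζ)) a) :=
    fun g a => (κ v.1).comm g a
  -- it is enough to show that `ψ v` kills `x`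
  suffices hfin : (ψ v.1).h2 x = 0 by
    rw [hκ v] at hfin
    apply kappa_injective (qLevels_eq ((v.1 : Nat.Primes) : ℕ)).symm hiv hcv (κ v.1)
      (fun _ => rfl) (fun _ => rfl)
    rw [hfin]
    exact (map_zero _).symm
  -- the auxiliary cyclic field
  obtain ⟨L, hnf, hgal, hdeg, htrans, hrec⟩ := exists_rec_field p hp2 v.1
  have hfd : FiniteDimensional ℚ L := by
    have h1 := hnf.to_finiteDimensional
    have h2 : (L.algebra' : Algebra ℚ L) = DivisionRing.toRatAlgebra := Subsingleton.elim _ _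
    exact h1
  obtain ⟨χ, hχ0, hχ⟩ := exists_chi_field (p := p) L hfd (normal_conv.2 hgal.to_normal) hdeg
  have hχq : ∀ (q : Nat.Primes) (γ : Gq q), (chiPull χ q : Gq q → ZMod p) γ =
      (χ : (Qb ≃ₐ[ℚ] Qb) → ZMod p) (localGaloisToGlobal (q : ℕ) γ) := fun _ _ => rfl
  have hχv : chiPull χ v.1 ≠ 0 := chi_ne_zero_of_trans hχ v.1 (hχq v.1) hdeg hχ0 htrans
  -- comparison of `G`-sets
  set U := L.fixingSubgroup with hU
  have hUo : IsOpenSub LQ U := ⟨U, ⟨L, hfd, normal_conv.2 hgal.to_normal, rfl⟩, le_rfl⟩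
  have hlift : ∀ a b : (Qb ≃ₐ[ℚ] Qb), (QuotientGroup.leftRel U) a b →
      (χ : (Qb ≃ₐ[ℚ] Qb) → ZMod p) a = (χ : (Qb ≃ₐ[ℚ] Qb) → ZMod p) b := by
    intro a b hab
    rw [QuotientGroup.leftRel_apply, ← hχ, chi_mul, chi_inv, neg_add_eq_zero] at hab
    exact hab
  let π : (Qb ≃ₐ[ℚ] Qb) ⧸ U → ZMod p := fun c =>
    Quotient.liftOn' c (fun g => (χ : (Qb ≃ₐ[ℚ] Qb) → ZMod p) g) hlift
  have hπ : ∀ g c, π (cosetAct U g c) = xi χ g (π c) := by
    intro g c
    obtain ⟨h, rfl⟩ := QuotientGroup.mk_surjective c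
    show (χ : (Qb ≃ₐ[ℚ] Qb) → ZMod p) (g * h) = (χ : (Qb ≃ₐ[ℚ] Qb) → ZMod p) h +
      (χ : (Qb ≃ₐ[ℚ] Qb) → ZMod p) g
    rw [chi_mul, add_comm]
  choose s hs using fun x : ZMod p => chi_surjective hχ0 x
  let π' : ZMod p → (Qb ≃ₐ[ℚ] Qb) ⧸ U := fun x => (s x : (Qb ≃ₐ[ℚ] Qb) ⧸ U)
  have hπ' : ∀ g x, π' (xi χ g x) = cosetAct U g (π' x) := by
    intro g x
    show ((s (xi χ g x) : (Qb ≃ₐ[ℚ] Qb)) : (Qb ≃ₐ[ℚ] Qb) ⧸ U) =
      ((g * s x : (Qb ≃ₐ[ℚ] Qb)) : (Qb ≃ₐ[ℚ] Qb) ⧸ U)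
    rw [QuotientGroup.eq, ← hχ, chi_mul, chi_mul, chi_inv, hs, hs, xi_apply]
    ring
  -- `β` becomes trivial over `L`
  have h0 : (constHom (xi χ) ρQ).h2 LQ β = 0 := by
    refine constHom_transfer π' hπ' β (habhn U hUo _ ?_ ?_)
    · rw [← map_nsmul, ← map_nsmul, ← map_nsmul, h2_torsion hpA, map_zero, map_zero, map_zero]
    · intro q
      rw [mapPair_constHom]
      by_cases hq : q = v.1
      · subst hq
        refine constHom_transfer (ξ := xi (chiPull χ v.1)) π (fun g c => ?_) _ ?_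
        · exact hπ (localGaloisToGlobal ((v.1 : Nat.Primes) : ℕ) g) c
        · rw [hψβ]
          let loc' : PairHom (sL S) (muA p) (qLevels ((v.1 : Nat.Primes) : ℕ))
              ((muA p).comp (localGaloisToGlobal ((v.1 : Nat.Primes) : ℕ))) :=
            { r := localGaloisToGlobal ((v.1 : Nat.Primes) : ℕ)
              f := AddMonoidHom.id _
              lev := (ψ v.1).lev
              comm := fun _ _ => rfl }
          have h1 := constHom_mu_eq_zero (lgalQ' ((v.1 : Nat.Primes) : ℕ)) hiv hcv hχv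
            (loc'.h2 x)
          have h2 : (ψ v.1).h2 x = (kumMu (lgalQ' ((v.1 : Nat.Primes) : ℕ)) hiv hcv).i.h2
              (qLevels ((v.1 : Nat.Primes) : ℕ)) (loc'.h2 x) := by
            rw [EHom.h2, ← PairHom.h2_comp]
            exact PairHom.h2_congr (fun _ => rfl) (fun _ => rfl) x
          rw [h2]
          exact h1
      · rw [hψβ, hne q hq]
        exact map_zero _
  obtain ⟨a, ha⟩ := exists_cycδ (lgG ℚ Qb).smooth χ (h90_chi (lgG ℚ Qb) hχ0) β h0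
  obtain ⟨t, ht0, ht⟩ := exists_rat a
  have hval : ∀ q : Nat.Primes,
      ((Additive.toMul ((φq q).h0 a : Additive (Cq q)ˣ) : (Cq q)ˣ) : Cq q) = (t : Cq q) := by
    intro q
    rw [PairHom.coe_h0, φq_f, ht, eq_ratCast, map_ratCast]
  have hβq : ∀ q : Nat.Primes, (ψ q).h2 x =
      cycδ (lgalQ' (q : ℕ)).smooth (chiPull χ q) ((φq q).h0 a) := by
    intro q
    rw [← hψβ, ← ha]
    exact cycδ_nat (φq q) (lgG ℚ Qb).smooth (lgalQ' (q : ℕ)).smooth χ (chiPull χ q)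
      (fun _ => rfl) a
  have hnorm : ∀ q : Nat.Primes, q ≠ v.1 → NormAt L q (t : Cq q) := by
    intro q hq
    rw [← hval q]
    refine (normAt_iff hχ q (hχq q) hdeg hχ0 _).2 ?_
    by_cases h : chiPull χ q = 0
    · exact sum_single_trivial h _
    · refine (cycδ_eq_zero (lgalQ' (q : ℕ)).smooth (chiPull χ q)
        (h90_chi (lgalQ' (q : ℕ)) h) _).1 ?_
      exact (hβq q).symm.trans (hne q hq)
  have hnv := hrec t ht0 hnorm
  rw [← hval v.1] at hnv
  rw [hβq]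
  exact (cycδ_eq_zero (lgalQ' ((v.1 : Nat.Primes) : ℕ)).smooth (chiPull χ v.1)
    (h90_chi (lgalQ' ((v.1 : Nat.Primes) : ℕ)) hχv) _).2
    ((normAt_iff hχ v.1 (hχq v.1) hdeg hχ0 _).1 hnv)

end main

end Fermat.Agent.PTC
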