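import Fermat.Agent.PTC.KumFin
import Fermat.Agent.PTC.Recip
import Fermat.Agent.PTC.Unr
import Fermat.Agent.PTC.Cyc
import Fermat.Agent.PTC.Frozen
import Fermat.Agent.ABHN.Final

/-!
# The hypotheses of the formal theorem
-/

set_option autoImplicit false

open scoped Pointwise NumberField

namespace Fermat.Agent.PTGlob

open Fermat.Agent.PT Fermat.Agent.PTLocal Fermat.Agent.CFT Fermat.Agent.CFT6 Fermat.Agent.PTC

-- the frozen algebra structure on `ℚ̄`, and the induced ones on subfields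
attribute [-instance] DivisionRing.toRatAlgebra
noncomputable local instance instAlgebraQb10 : Algebra ℚ (AlgebraicClosure ℚ) :=
  DivisionRing.toRatAlgebra

variable {S : Finset Nat.Primes} {p : ℕ} [hp : Fact p.Prime]

lemma nsmul_h2_mapX (U : Subgroup GQ) (x : H2 (sL S) (mapAct (cosetAct U) (muA p))) :
    p • x = 0 := by
  obtain ⟨c, rfl⟩ := H2.mk_surjective _ _ x
  rw [← map_nsmul]
  have : p • c = 0 := by
    apply Subtype.ext
    funext g g' x
    show p • ((c : GQ → GQ → (GQ ⧸ U) → ZMod p) g g' x) = 0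
    rw [nsmul_eq_mul, CharP.cast_eq_zero, zero_mul]
  rw [this, map_zero]

theorem abhnHyp {ζ : OmS S} (hζ : IsPrimitiveRoot ζ p) (hp2 : p ≠ 2) (hpS : ExtCitation.pPrime p ∈ S) : AbhnHyp hζ := by
  intro U hU hUW x hx
  have hfi := hU.finiteIndex
  rw [PTData.mem_sha2] at hx
  refine ABHN.abhn_S_semi hp2 hpS (cosetAct U) (levelTrivial_cosetAct hU) _ ?_ (fun q => ?_)
  · rw [← map_nsmul, nsmul_h2_mapX, map_zero]
  · by_cases hq : q ∈ S
    · -- localisation at a place of `S`
      let κ : PairHom ((ptd S).Lv ⟨q, hq⟩) ((mapAct (cosetAct U) (muA p)).comp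
          ((ptd S).r ⟨q, hq⟩)) (allL.comap (ExtCitation.primeLocalToGlobal q))
          (mapAct ((cosetAct U).comp (ExtCitation.primeLocalToGlobal q))
            (galAct ℚ_[(q : ℕ)] (Cq q))) :=
        { r := MonoidHom.id _
          f := (ABHN.mapPair (cosetAct U) ((ABHN.sysS S).loc q)).f.comp
            ((muG hζ).mapX (cosetAct U)).f
          lev := fun N hN => ⟨N, hN, fun _ h => h⟩
          comm := fun γ a => by
            have h1 := ((muG hζ).mapX (cosetAct U)).comm (ExtCitation.primeLocalToGlobal q γ) a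
            have h2 := (ABHN.mapPair (cosetAct U) ((ABHN.sysS S).loc q)).comm γ
              (((muG hζ).mapX (cosetAct U)).f a)
            exact (congrArg _ h1).trans h2 }
      have h1 : (ABHN.mapPair (cosetAct U) ((ABHN.sysS S).loc q)).h2
          (((muG hζ).mapX (cosetAct U)).h2 (sL S) x) =
          κ.h2 (((ptd S).loc ⟨q, hq⟩ (mapAct (cosetAct U) (muA p))).h2 x) := by
        rw [EHom.h2, ← PairHom.h2_comp]
        refine Eq.trans ?_ (PairHom.h2_comp κ _ x)
        exact PairHom.h2_congr (fun _ => rfl) (fun _ => rfl) x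
      rw [h1, hx]
      exact map_zero κ.h2
    · have h1 : (ABHN.mapPair (cosetAct U) ((ABHN.sysS S).loc q)).h2
          (((muG hζ).mapX (cosetAct U)).h2 (sL S) x) =
          ((ABHN.mapPair (cosetAct U) ((ABHN.sysS S).loc q)).comp
            (((muG hζ).mapX (cosetAct U)).pair (sL S))).h2 x := by
        rw [EHom.h2, ← PairHom.h2_comp]
      rw [h1]
      have : Finite (GQ ⧸ U → ZMod p) := inferInstance
      refine unr_sL hq _ rfl ?_ hp.out.pos ?_ x
      · exact Smooth.mapAct (levelTrivial_cosetAct hU) (muA_smooth p hpS)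
      · intro a
        funext y
        show p • (a y) = 0
        rw [nsmul_eq_mul, CharP.cast_eq_zero, zero_mul]

/-- the input of `recip_of_abhn` -/
theorem abhnHyp' (hp2 : p ≠ 2) : PTC.AbhnHyp p := by
  unfold PTC.AbhnHyp
  have key : ∀ (L : Levels GQ) (hL : L = allL) (L' : ∀ q : Nat.Primes, Levels (Gq q))
      (hL' : ∀ q, L' q = allL.comap (localGaloisToGlobal (q : ℕ)))
      (lev : ∀ q : Nat.Primes, ∀ N ∈ L.carrier, ∃ N' ∈ (L' q).carrier, ∀ γ ∈ N',
        localGaloisToGlobal (q : ℕ) γ ∈ N)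
      (U : Subgroup GQ), IsOpenSub L U → ∀ β : H2 L (mapAct (cosetAct U) ρQ), p • β = 0 →
      (∀ q : Nat.Primes, (PTC.mapPair (PairHom.mk (φq q).r (φq q).f (lev q) (φq q).comm :
        PairHom L ρQ (L' q) (galAct ℚ_[(q : ℕ)] (Cq q))) (cosetAct U)).h2 β = 0) → β = 0 := by
    rintro _ rfl L' hL' lev U hU β hβ hloc
    obtain rfl : L' = fun q : Nat.Primes => allL.comap (localGaloisToGlobal (q : ℕ)) := funext hL'
    have hfi := hU.finiteIndex
    exact ABHN.abhn_all_semi hp2 (cosetAct U) (levelTrivial_cosetAct hU) β hβ hloc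
  intro U hU β hβ hloc
  exact key LQ galLevels_eq (fun q : Nat.Primes => qLevels (q : ℕ)) (fun q : Nat.Primes => qLevels_eq (q : ℕ))
    (fun q => (φq q).lev) U hU β hβ hloc

/-- **the hypotheses of the formal theorem** -/
theorem ptHyp (hp2 : p ≠ 2) (hpS : ExtCitation.pPrime p ∈ S) :
    PTHyp (ptd S) p (muA p) (muW p) (eAt p S) := by
  obtain ⟨ζ, hζ⟩ := PTGlob.exists_zeta (S := S) hpS
  exact
  { smooth := muA_smooth p hpS
    isOpen := muW_open p hpS
    idx := muW_idx p
    normal := muW_normal p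
    triv := muW_triv p
    he := sum_eAt p hpS
    loc := locHyp p
    fin := fun U hU hUW => fin hζ hU hUW hp2 hpS (abhnHyp hζ hp2 hpS)
    kum_le := fun U hU hUW => kum_le hζ hU hUW hp2 hpS (abhnHyp hζ hp2 hpS)
    kum_ge := fun U hU hUW => kum_ge hζ hU hUW hp2 hpS (abhnHyp hζ hp2 hpS)
    recip := recip_of_abhn hp2 (abhnHyp' hp2) hpS
    cyc := fun U hU _ => PTC.cyc p hp2 hpS U hU }

end Fermat.Agent.PTGlob
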