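import Fermat.Agent.PT.Borel
import Fermat.Agent.Units.Final

/-!
# Tate's global Euler characteristic formula over `ℚ` (with archimedean term)
-/

set_option autoImplicit false

namespace Fermat.Agent.PTC

open Fermat.Agent.PT Fermat.Agent.PTGlob Fermat.Agent.CFT Fermat.Agent.CFT6

attribute [-instance] DivisionRing.toRatAlgebra
noncomputable local instance instAlgebraQb14 : Algebra ℚ (AlgebraicClosure ℚ) :=
  DivisionRing.toRatAlgebra

section Conj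

/-- complex conjugations -/
def IsConj (c : GQ) : Prop := ∃ j : Qb →+* ℂ, ∀ x, j (c x) = (starRingEnd ℂ) (j x)

variable {c : GQ}

lemma IsConj.sq (hc : IsConj c) : c * c = 1 := by
  obtain ⟨j, hj⟩ := hc
  apply AlgEquiv.ext
  intro x
  apply j.injective
  show j (c (c x)) = j x
  rw [hj, hj, Complex.conj_conj]

variable (p : ℕ) [hp : Fact p.Prime]

lemma IsConj.muA_neg (hc : IsConj c) (a : ZMod p) : muA p c a = -a := by
  obtain ⟨j, hj⟩ := hc
  obtain ⟨ζ, hζ⟩ := exists_zeta p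
  have hp1 := hp.out.one_lt
  have hζ0 : ζ ≠ 0 := hζ.ne_zero hp.out.ne_zero
  have h1 : c ζ = ζ ^ (p - 1) := by
    have h2 : c ζ = ζ⁻¹ := by
      apply j.injective
      have hn : ‖j ζ‖ = 1 := by
        refine Complex.norm_eq_one_of_pow_eq_one (n := p) ?_ hp.out.ne_zero
        rw [← map_pow, hζ.pow_eq_one, map_one]
      rw [hj, map_inv₀, Complex.inv_eq_conj hn]
    rw [h2, inv_eq_iff_eq_inv, ← mul_eq_one_iff_eq_inv₀ (pow_ne_zero _ hζ0), ← pow_succ',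
      Nat.sub_add_cancel hp1.le]
    exact hζ.pow_eq_one
  rw [cyclo_spec p c hζ.pow_eq_one] at h1
  have h2 := hζ.pow_inj (ZMod.val_lt _) (Nat.sub_lt hp.out.pos one_pos) h1
  have h3 : ((ExtCitation.cycloChar p c : (ZMod p)ˣ) : ZMod p) = -1 := by
    rw [← ZMod.natCast_zmod_val ((ExtCitation.cycloChar p c : (ZMod p)ˣ) : ZMod p), h2,
      Nat.cast_sub hp1.le, Nat.cast_one, ZMod.natCast_self, zero_sub]
  rw [muA, mulAct_apply, h3, neg_one_mul]

end Conj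

variable {p : ℕ} [hp : Fact p.Prime] {k : Type} [Field k] [Finite k] [CharP k p]

lemma actKer_muA : actKer (muA p) = muW p := by
  ext g
  rw [mem_actKer, mem_muW_iff']

lemma isOpen_inf {S : Finset Nat.Primes} {U V : Subgroup GQ} (hU : IsOpenSub (sL S) U)
    (hV : IsOpenSub (sL S) V) : IsOpenSub (sL S) (U ⊓ V) := by
  obtain ⟨N, hN, h⟩ := hU
  obtain ⟨N', hN', h'⟩ := hV
  obtain ⟨M, hM, h1, h2⟩ := (sL S).directed' N hN N' hN'
  exact ⟨M, hM, le_inf (h1.trans h) (h2.trans h')⟩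

/-- **Tate's global Euler characteristic formula**: for `r : G_ℚ → GL₂(k)` of finite level and any
finite `𝔽_p[G_ℚ]`-module `M` on which `ker r ∩ ker ω` acts trivially,
`|H¹| = |H⁰| |H²| |M^{c=-1}|` for all large `S`. -/
theorem euler_global (hp2 : p ≠ 2) (r : GQ →* GL (Fin 2) k) {S₁ : Finset Nat.Primes}
    (hpS₁ : ExtCitation.pPrime p ∈ S₁) (hr : IsOpenSub (sL S₁) r.ker) :
    ∃ S₀, S₁ ⊆ S₀ ∧ ∀ S, S₀ ⊆ S → ∀ (c : GQ) (_ : IsConj c) {M : Type} [AddCommGroup M]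
      [Finite M] (_ : ∀ m : M, p • m = 0) {ρ : Act GQ M}
      (_ : ∀ u ∈ r.ker ⊓ muW p, ∀ m, ρ u m = m), ECFor (ptd S) c ρ := by
  obtain ⟨W, V, hWn, hUW, hWV, hpg, hidx, hμ, hfree⟩ := exists_borel (p := p) r (muA p)
  rw [actKer_muA] at hUW hpg hfree
  have hUo : IsOpenSub (sL S₁) (r.ker ⊓ muW p) := isOpen_inf hr (muW_open p hpS₁)
  have hWo : IsOpenSub (sL S₁) W := by
    obtain ⟨N, hN, h⟩ := hUo
    exact ⟨N, hN, h.trans hUW⟩
  have hWμ : W ≤ muW p := fun w hw => (mem_muW_iff' p).2 (hμ w hw)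
  obtain ⟨S₂, hS₂, h₂⟩ := Units.units_main hp2 hpS₁ hUo inf_le_right
  obtain ⟨S₃, hS₃, h₃⟩ := Units.units_main hp2 hpS₁ hWo hWμ
  classical
  refine ⟨S₂ ∪ S₃, hS₂.trans Finset.subset_union_left, fun S hS c hc M _ _ hpM ρ hρ => ?_⟩
  have hSS₂ : S₂ ⊆ S := Finset.subset_union_left.trans hS
  have hSS₃ : S₃ ⊆ S := Finset.subset_union_right.trans hS
  have hSS₁ : S₁ ⊆ S := hS₂.trans hSS₂
  have hpS := hSS₁ hpS₁
  have hmn := muW_normal p
  have hn : (r.ker ⊓ muW p).Normal := inferInstance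
  refine ec_main (ptHyp hp2 hpS) (fun a => hc.muA_neg p a) hp2 hc.sq
    (U := r.ker ⊓ muW p) (W := W) (V := V) (Units.isOpen_mono hSS₁ hUo) hUW hWV hpg hidx hμ hfree
    ?_ ?_ hpM hρ
  · refine ⟨?_, fun m => ((h₂ S hSS₂).2 ⊤ le_top m c hc)⟩
    rw [eq_bot_iff]
    intro x hx
    exact (h₂ S hSS₂).1 x hx
  · refine ⟨?_, fun m => ((h₃ S hSS₃).2 V hWV m c hc)⟩
    rw [eq_bot_iff]
    intro x hx
    exact (h₃ S hSS₃).1 x hx

end Fermat.Agent.PTC
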