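import Fermat.Agent.PTC.Levels

/-!
# Comparison of level cohomology with the frozen cohomology groups
-/

set_option autoImplicit false

namespace Fermat.Agent.PTC

open Fermat.Agent.PT CategoryTheory

section general

variable {k G : Type} [CommRing k] [Group G]

/-- the action attached to a representation -/
def repAct (M : Rep k G) : Act G M where
  toFun g := (M.ρ g).toAddMonoidHom
  map_one' := by
    apply AddMonoidHom.ext
    intro a
    show M.ρ 1 a = a
    rw [map_one]; rfl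
  map_mul' g h := by
    apply AddMonoidHom.ext
    intro a
    show M.ρ (g * h) a = M.ρ g (M.ρ h a)
    rw [map_mul]; rfl

@[simp] lemma repAct_apply (M : Rep k G) (g : G) (a : M) : repAct M g a = M.ρ g a := rfl

/-- transport of a relation through surjections -/
lemma exists_equiv {V Z P Q : Type*} (π : V → P) (ϖ : Z → Q) (hπ : Function.Surjective π)
    (hϖ : Function.Surjective ϖ) (E : V ≃ Z) (h : ∀ a b, π a = π b ↔ ϖ (E a) = ϖ (E b)) :
    ∃ Φ : P ≃ Q, ∀ a, Φ (π a) = ϖ (E a) := by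
  have key : ∀ a, ϖ (E (Function.surjInv hπ (π a))) = ϖ (E a) := fun a =>
    (h _ _).1 (Function.surjInv_eq hπ (π a))
  refine ⟨Equiv.ofBijective (fun x => ϖ (E (Function.surjInv hπ x))) ⟨?_, ?_⟩, key⟩
  · intro x y hxy
    obtain ⟨a, rfl⟩ := hπ x
    obtain ⟨b, rfl⟩ := hπ y
    have h1 : ϖ (E (Function.surjInv hπ (π a))) = ϖ (E (Function.surjInv hπ (π b))) := hxy
    rw [key, key] at h1
    exact (h a b).2 h1
  · intro y
    obtain ⟨z, rfl⟩ := hϖ y
    refine ⟨π (E.symm z), ?_⟩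
    show ϖ (E (Function.surjInv hπ (π (E.symm z)))) = ϖ z
    rw [key, Equiv.apply_symm_apply]

lemma card_sub_eq {V Z P Q : Type*} (π : V → P) (ϖ : Z → Q) (hπ : Function.Surjective π)
    (hϖ : Function.Surjective ϖ) (E : V ≃ Z) (h : ∀ a b, π a = π b ↔ ϖ (E a) = ϖ (E b))
    (p : P → Prop) (q : Q → Prop) (hpq : ∀ a, p (π a) ↔ q (ϖ (E a))) :
    Nonempty ({x // p x} ≃ {x // q x}) := by
  obtain ⟨Φ, hΦ⟩ := exists_equiv π ϖ hπ hϖ E h
  refine ⟨Φ.subtypeEquiv fun x => ?_⟩
  obtain ⟨a, rfl⟩ := hπ x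
  rw [hΦ]
  exact hpq a

end general

section H2

variable {k : Type} [CommRing k] (S : Finset Nat.Primes) (M : Rep k GQ)

/-- level 2-cocycles -/
def cocEquiv₂ : ↥(groupCohomology.levelCocyclesS₂ S M) ≃ Z2 (sL S) (repAct M) where
  toFun c := ⟨fun g h => (c : GQ × GQ → M) (g, h), mem_Z2'.2 ⟨isLC₂_sL_iff.2 c.2.2, fun g h j =>
    (groupCohomology.mem_cocycles₂_iff _).1 c.2.1 g h j⟩⟩
  invFun c := ⟨fun x => (c : GQ → GQ → M) x.1 x.2,
    (groupCohomology.mem_cocycles₂_iff _).2 fun g h j => (mem_Z2'.1 c.2).2 g h j,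
    isLC₂_sL_iff.1 (mem_Z2'.1 c.2).1⟩
  left_inv _ := rfl
  right_inv _ := rfl

lemma d12_eq (G : Type) [Group G] (M : Rep k G) (x : G → M) (g h : G) :
    (groupCohomology.d₁₂ M).hom x (g, h) = d1 (repAct M) x g h := by
  rw [groupCohomology.d₁₂_hom_apply, d1_apply]
  rfl

lemma π₂_eq_zero_iff (a : ↥(groupCohomology.levelCocyclesS₂ S M)) :
    groupCohomology.continuousH2Sπ S M a = 0 ↔ H2.mk (sL S) (repAct M) (cocEquiv₂ S M a) = 0 := by
  rw [groupCohomology.continuousH2Sπ_eq_zero_iff, groupCohomology.mem_levelCoboundariesS₂_iff,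
    H2.mk_eq_zero]
  constructor
  · rintro ⟨x, hx, h⟩
    refine ⟨x, isLC₁_sL_iff.2 hx, ?_⟩
    funext g h'
    rw [← d12_eq, h]
    rfl
  · rintro ⟨x, hx, h⟩
    refine ⟨x, isLC₁_sL_iff.1 hx, ?_⟩
    funext y
    obtain ⟨g, h'⟩ := y
    rw [d12_eq, h]
    rfl

lemma π₂_eq_iff (a b : ↥(groupCohomology.levelCocyclesS₂ S M)) :
    groupCohomology.continuousH2Sπ S M a = groupCohomology.continuousH2Sπ S M b ↔
      H2.mk (sL S) (repAct M) (cocEquiv₂ S M a) = H2.mk (sL S) (repAct M) (cocEquiv₂ S M b) := by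
  rw [← sub_eq_zero, ← map_sub, π₂_eq_zero_iff]
  rw [← sub_eq_zero (a := H2.mk (sL S) (repAct M) (cocEquiv₂ S M a)), ← map_sub]
  rfl

/-- local triviality of a class in the frozen sense -/
lemma locRes₂S_eq_zero_iff {H : Type} [Group H] (f : H →* GQ)
    (a : ↥(groupCohomology.levelCocyclesS₂ S M)) :
    groupCohomology.locRes₂S S M f (groupCohomology.continuousH2Sπ S M a) = 0 ↔
      ∃ x : H → M, groupCohomology.IsLevelConstant₁ f x ∧
        ∀ g h, M.ρ (f g) (x h) - x (g * h) + x g = (a : GQ × GQ → M) (f g, f h) := by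
  have h1 : groupCohomology.locRes₂S S M f (groupCohomology.continuousH2Sπ S M a) =
    groupCohomology.continuousH2π f (Rep.res f M)
      (groupCohomology.levelCocycles₂Map (rH := MonoidHom.id _) (rG := f) f (fun _ => rfl)
      (LinearMap.id : M →ₗ[k] Rep.res f M) (fun _ _ => rfl)
        (groupCohomology.levelCocyclesS₂ToLevelCocycles₂ S M a)) := rfl
  rw [h1, groupCohomology.continuousH2π_eq_zero_iff, groupCohomology.mem_levelCoboundaries₂_iff]
  refine exists_congr fun x => and_congr Iff.rfl ?_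
  constructor
  · intro h g g'
    have := congrFun h (g, g')
    rw [groupCohomology.d₁₂_hom_apply] at this
    exact this
  · intro h
    funext y
    obtain ⟨g, g'⟩ := y
    rw [groupCohomology.d₁₂_hom_apply]
    exact h g g'

lemma loc_h2_eq_zero_iff (q : ↥S) (a : ↥(groupCohomology.levelCocyclesS₂ S M)) :
    ((ptd S).loc q (repAct M)).h2 (H2.mk (sL S) (repAct M) (cocEquiv₂ S M a)) = 0 ↔
      ∃ x : ExtCitation.primeLocalGaloisGroup q.1 → M,
        groupCohomology.IsLevelConstant₁ (ExtCitation.primeLocalToGlobal q.1) x ∧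
        ∀ g h, M.ρ (ExtCitation.primeLocalToGlobal q.1 g) (x h) - x (g * h) + x g =
          (a : GQ × GQ → M) (ExtCitation.primeLocalToGlobal q.1 g,
            ExtCitation.primeLocalToGlobal q.1 h) := by
  rw [PairHom.h2_mk, H2.mk_eq_zero]
  refine exists_congr fun x => and_congr (isLC₁_comap_iff _) ?_
  constructor
  · intro h g g'
    have := congrFun (congrFun h g) g'
    rw [d1_apply] at this
    exact this
  · intro h
    funext g g'
    rw [d1_apply]
    exact h g g'

end H2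

section H1

variable {k : Type} [Field k] (S : Finset Nat.Primes) (M : Rep k GQ)

/-- level 1-cocycles -/
noncomputable def cocEquiv₁ : {c : groupCohomology.cocycles₁ M // groupCohomology.IsLevelConstantS₁ S c} ≃
    Z1 (sL S) (repAct M) where
  toFun c := ⟨fun g => c.1 g, mem_Z1'.2 ⟨isLC₁_sL_iff.2 c.2, fun g h => by
    exact ((groupCohomology.mem_cocycles₁_iff _).1 c.1.2 g h).trans (add_comm _ _)⟩⟩
  invFun c := ⟨⟨fun x => (c : GQ → M) x,
    (groupCohomology.mem_cocycles₁_iff _).2 fun g h => by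
      exact ((mem_Z1'.1 c.2).2 g h).trans (add_comm _ _)⟩,
    isLC₁_sL_iff.1 (mem_Z1'.1 c.2).1⟩
  left_inv _ := rfl
  right_inv _ := rfl

/-- classes of level cocycles -/
noncomputable def π₁ (a : {c : groupCohomology.cocycles₁ M // groupCohomology.IsLevelConstantS₁ S c}) :
    {x : groupCohomology.H1 M // x ∈ groupCohomology.continuousH1S S M} :=
  ⟨(groupCohomology.H1π M).hom a.1, (groupCohomology.mem_continuousH1S_iff S M _).2
    ⟨a.1, a.2, rfl⟩⟩

lemma π₁_surjective : Function.Surjective (π₁ S M) := by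
  rintro ⟨x, hx⟩
  obtain ⟨c, hc, rfl⟩ := (groupCohomology.mem_continuousH1S_iff S M x).1 hx
  exact ⟨⟨c, hc⟩, rfl⟩

lemma π₁_eq_iff (a b : {c : groupCohomology.cocycles₁ M //
    groupCohomology.IsLevelConstantS₁ S c}) :
    π₁ S M a = π₁ S M b ↔
      H1.mk (sL S) (repAct M) (cocEquiv₁ S M a) = H1.mk (sL S) (repAct M) (cocEquiv₁ S M b) := by
  rw [← sub_eq_zero (a := H1.mk (sL S) (repAct M) (cocEquiv₁ S M a)), ← map_sub,
    H1.mk_eq_zero, Subtype.ext_iff]
  refine (groupCohomology.H1π_eq_iff a.1 b.1).trans ?_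
  constructor
  · rintro ⟨m, hm⟩
    refine ⟨m, ?_⟩
    funext g
    exact congrFun hm g
  · rintro ⟨m, hm⟩
    refine ⟨m, ?_⟩
    funext g
    exact congrFun hm g

lemma locRes_eq_zero_iff {ι : Type} {Γv : ι → Type} [∀ v, Group (Γv v)]
    (loc : ∀ v, Γv v →* GQ) (v : ι) (a : groupCohomology.cocycles₁ M) :
    (groupCohomology.locRes loc M v).hom ((groupCohomology.H1π M).hom a) = 0 ↔
      ∃ m : M, ∀ g, M.ρ (loc v g) m - m = a (loc v g) := by
  have h1 : (groupCohomology.locRes loc M v).hom ((groupCohomology.H1π M).hom a) =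
    (groupCohomology.H1π _).hom ((groupCohomology.mapCocycles₁ (loc v)
      (𝟙 (Rep.res (loc v) M))).hom a) := by
    have := groupCohomology.H1π_comp_map (loc v) (𝟙 (Rep.res (loc v) M))
    exact congrArg (fun φ => φ.hom a) this
  rw [h1]
  refine (groupCohomology.H1π_eq_zero_iff _).trans ?_
  constructor
  · rintro ⟨m, hm⟩
    exact ⟨m, fun g => congrFun hm g⟩
  · rintro ⟨m, hm⟩
    exact ⟨m, funext hm⟩

lemma loc_h1_eq_zero_iff (q : ↥S) (a : {c : groupCohomology.cocycles₁ M //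
    groupCohomology.IsLevelConstantS₁ S c}) :
    ((ptd S).loc q (repAct M)).h1 (H1.mk (sL S) (repAct M) (cocEquiv₁ S M a)) = 0 ↔
      ∃ m : M, ∀ g, M.ρ (ExtCitation.primeLocalToGlobal q.1 g) m - m =
        a.1 (ExtCitation.primeLocalToGlobal q.1 g) := by
  rw [PairHom.h1_mk, H1.mk_eq_zero]
  refine exists_congr fun x => ?_
  constructor
  · intro h g
    exact congrFun h g
  · intro h
    funext g
    exact h g

end H1

section averaging

variable {p : ℕ} [Fact p.Prime] {C : Type} [Group C] [Finite C] (M : Rep (ZMod p) C)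
  (hC : (Nat.card C : ZMod p) ≠ 0)

include hC in
lemma h1_average (f : C → M) (hf : ∀ g h, f (g * h) = M.ρ g (f h) + f g) :
    ∃ m : M, ∀ g, M.ρ g m - m = f g := by
  classical
  have : Fintype C := Fintype.ofFinite C
  refine ⟨-((Nat.card C : ZMod p)⁻¹ • ∑ h, f h), fun g => ?_⟩
  have h1 : ∑ h, f (g * h) = M.ρ g (∑ h, f h) + Nat.card C • f g := by
    rw [map_sum, Finset.sum_congr rfl (fun h _ => hf g h), Finset.sum_add_distrib,
      Finset.sum_const, Finset.card_univ, Nat.card_eq_fintype_card]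
  have h2 : ∑ h, f (g * h) = ∑ h, f h := Equiv.sum_comp (Equiv.mulLeft g) f
  rw [h2] at h1
  have h3 : (Nat.card C : ZMod p) • f g = ∑ h, f h - M.ρ g (∑ h, f h) := by
    rw [eq_sub_iff_add_eq, h1, Nat.cast_smul_eq_nsmul, ← h1, add_comm]
    exact h1.symm
  rw [map_neg, map_smul, sub_neg_eq_add, neg_add_eq_sub, ← smul_sub, ← h3, smul_smul,
    inv_mul_cancel₀ hC, one_smul]

include hC in
lemma h2_average (f : C → C → M)
    (hf : ∀ g h j, f (g * h) j + f g h = M.ρ g (f h j) + f g (h * j)) :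
    ∀ g h, M.ρ g ((Nat.card C : ZMod p)⁻¹ • ∑ᶠ j, f h j) -
      ((Nat.card C : ZMod p)⁻¹ • ∑ᶠ j, f (g * h) j) +
      ((Nat.card C : ZMod p)⁻¹ • ∑ᶠ j, f g j) = f g h := by
  classical
  have : Fintype C := Fintype.ofFinite C
  intro g h
  rw [finsum_eq_sum_of_fintype, finsum_eq_sum_of_fintype, finsum_eq_sum_of_fintype]
  have h1 : ∑ j, f (g * h) j + Nat.card C • f g h = M.ρ g (∑ j, f h j) + ∑ j, f g j := by
    have h2 : ∑ j, (f (g * h) j + f g h) = ∑ j, (M.ρ g (f h j) + f g (h * j)) :=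
      Finset.sum_congr rfl fun j _ => hf g h j
    rw [Finset.sum_add_distrib, Finset.sum_add_distrib, Finset.sum_const, Finset.card_univ,
      ← Nat.card_eq_fintype_card, ← map_sum] at h2
    rw [h2]
    exact congrArg (M.ρ g (∑ j, f h j) + ·) (Equiv.sum_comp (Equiv.mulLeft h) (fun j => f g j))
  have h3 : (Nat.card C : ZMod p) • f g h =
      M.ρ g (∑ j, f h j) - ∑ j, f (g * h) j + ∑ j, f g j := by
    rw [Nat.cast_smul_eq_nsmul, sub_add_eq_add_sub, ← h1]
    abel
  rw [map_smul, ← smul_sub, ← smul_add, ← h3, smul_smul, inv_mul_cancel₀ hC, one_smul]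

end averaging

section arch

lemma arch_finite : Finite ↥ExtCitation.archimedeanDecomposition := by
  unfold ExtCitation.archimedeanDecomposition
  refine Nat.finite_of_card_ne_zero ?_
  rw [Nat.card_zpowers]
  exact (orderOf_pos_iff.2 (isOfFinOrder_iff_pow_eq_one.2
    ⟨2, two_pos, complexConjugation_sq⟩)).ne'

lemma arch_card {p : ℕ} [Fact p.Prime] (hp2 : p ≠ 2) :
    (Nat.card ↥ExtCitation.archimedeanDecomposition : ZMod p) ≠ 0 := by
  unfold ExtCitation.archimedeanDecomposition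
  rw [Nat.card_zpowers, Ne, ZMod.natCast_eq_zero_iff]
  intro h
  have h1 : p ∣ 2 := h.trans (orderOf_dvd_of_pow_eq_one complexConjugation_sq)
  exact hp2 ((Nat.prime_dvd_prime_iff_eq Fact.out Nat.prime_two).1 h1)

end arch

end Fermat.Agent.PTC
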