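import Fermat.Agent.PTGlob.OrbCmp

/-!
# The Kummer hypotheses of the formal theorem
-/

set_option autoImplicit false

open scoped Pointwise NumberField

namespace Fermat.Agent.PTGlob

open Fermat.Agent.PT Fermat.Agent.PTLocal Fermat.Agent.CFT Fermat.Agent.CFT6 Fermat.Agent.PTC

-- the frozen algebra structure on `ℚ̄`, and the induced ones on subfields
attribute [-instance] DivisionRing.toRatAlgebra
noncomputable local instance instAlgebraQb8 : Algebra ℚ (AlgebraicClosure ℚ) :=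
  DivisionRing.toRatAlgebra

variable {S : Finset Nat.Primes} {p : ℕ} [hp : Fact p.Prime]

lemma exists_pPrime (hpS : ExtCitation.pPrime p ∈ S) : ∃ q ∈ S, (q : ℕ) = p :=
  ⟨_, hpS, rfl⟩

/-- a primitive root of unity in `ℚ_S` -/
lemma exists_zeta (hpS : ExtCitation.pPrime p ∈ S) : ∃ ζ : OmS S, IsPrimitiveRoot ζ p := by
  have : NeZero (p : Qb) := ⟨by exact_mod_cast hp.out.ne_zero⟩
  obtain ⟨z, hz⟩ := HasEnoughRootsOfUnity.exists_primitiveRoot Qb p
  have hzS : z ∈ OmS S := by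
    apply mem_OmS_of_pow (exists_pPrime hpS)
    · rw [hz.pow_eq_one]; exact one_mem _
    · intro q _ Ψ
      exact ⟨0, by rw [hz.pow_eq_one]; simp⟩
  refine ⟨⟨z, hzS⟩, ?_⟩
  exact IsPrimitiveRoot.of_map_of_injective (f := algebraMap (OmS S) Qb) hz
    (algebraMap (OmS S) Qb).injective

variable {ζ : OmS S} (hζ : IsPrimitiveRoot ζ p)

include hζ in
lemma jS_zeta (g : GQ) : jS S g ζ = ζ ^ ((ExtCitation.cycloChar p g : (ZMod p)ˣ) : ZMod p).val := by
  have : NeZero p := ⟨hp.out.ne_zero⟩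
  apply Subtype.ext
  rw [jS_apply]
  have h0 : (Units.mk0 (ζ : Qb) (fun h => hζ.ne_zero hp.out.ne_zero (Subtype.ext h))) ∈
      rootsOfUnity p Qb := by
    rw [mem_rootsOfUnity]
    apply Units.ext
    rw [Units.val_pow_eq_pow_val, Units.val_mk0, Units.val_one]
    exact congrArg (fun z : OmS S => (z : Qb)) hζ.pow_eq_one
  have h1 := modularCyclotomicCharacter.spec (L := Qb) (ExtCitation.card_rootsOfUnity_eq_self p)
    (g : Qb ≃+* Qb) h0
  exact h1

/-- `μ_p → ℚ_Sˣ` -/
noncomputable def muG : EHom (muA p) (lgSL S).act where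
  f := zetaHom hζ
  comm g a := by
    apply Additive.toMul.injective
    apply Units.ext
    show ((Additive.toMul (zetaHom hζ (muA p g a)) : (OmS S)ˣ) : OmS S) =
      jS S g ((Additive.toMul (zetaHom hζ a) : (OmS S)ˣ) : OmS S)
    rw [zetaHom_apply, zetaHom_apply, map_pow, jS_zeta hζ, ← pow_mul]
    show ζ ^ (((ExtCitation.cycloChar p g : (ZMod p)ˣ) : ZMod p) * a).val = _
    rw [ZMod.val_mul]
    conv_rhs => rw [← Nat.mod_add_div (((ExtCitation.cycloChar p g : (ZMod p)ˣ) : ZMod p).val * a.val) p,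
      pow_add, pow_mul ζ p, hζ.pow_eq_one, one_pow, mul_one]

variable {V : Subgroup GQ} (hV : IsOpenSub (sL S) V) (hVW : V ≤ muW p)

include hζ hVW in
lemma fix_zeta (g : V) : (lgV hV).j g ζ = ζ := by
  have h1 := jS_zeta hζ (g : GQ)
  have h2 : ExtCitation.cycloChar p (g : GQ) = 1 := hVW g.2
  have h3 : (lgV hV).j g = jS S (g : GQ) := rfl
  rw [h3, h1, h2, Units.val_one]
  have : Fact (1 < p) := ⟨hp.out.one_lt⟩
  rw [ZMod.val_one, pow_one]

include hζ hVW in
lemma exists_zeta_E : ∃ z : (lgV hV).E, IsPrimitiveRoot z p := by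
  refine ⟨⟨ζ, (lgV hV).mem_E.2 (fix_zeta hζ hV hVW)⟩, ?_⟩
  exact IsPrimitiveRoot.of_map_of_injective (f := algebraMap (lgV hV).E (OmS S)) hζ
    (algebraMap (lgV hV).E (OmS S)).injective

/-- the kernel of `H²(V, μ) → H²(V, Ωˣ)` -/
noncomputable abbrev kerV : AddSubgroup (H2 ((sL S).sub V) (trivAct V (ZMod p))) :=
  ((muI (lgV hV) hζ (fix_zeta hζ hV hVW)).h2 ((sL S).sub V)).ker

include hζ in
theorem card_H1_sq (hp2 : p ≠ 2) (hpS : ExtCitation.pPrime p ∈ S) :
    Nat.card (H1 ((sL S).sub V) (trivAct V (ZMod p))) ^ 2 =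
      Nat.card (kerV hζ hV hVW) ^ 2 * p ^ (2 * (ptd S).s V + V.index) := by
  obtain ⟨z, hz⟩ := exists_zeta_E hζ hV hVW
  have h1 := card_H1_trivAct (lgV hV) hζ (fix_zeta hζ hV hVW) (exists_pPrime hpS)
  have h2 := card_ker_H2 (lgV hV) hζ (fix_zeta hζ hV hVW) (exists_pPrime hpS)
  rw [relIndex_KS p S hp2 hz, card_ker_pow_ClS] at h1
  have h3 := (rank_of_primitiveRoot hp2 hz).2
  rw [h1, h2, s_eq hV, index_eq_card_emb hV (ExtCitation.pPrime p), card_emb, mul_pow, ← pow_mul,
    mul_comm]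
  congr 2
  rw [add_mul, mul_comm _ 2, mul_comm _ 2, h3]

lemma finite_kerV (hpS : ExtCitation.pPrime p ∈ S) : Finite (kerV hζ hV hVW) := by
  have h2 := card_ker_H2 (lgV hV) hζ (fix_zeta hζ hV hVW) (exists_pPrime hpS)
  apply Nat.finite_of_card_ne_zero
  rw [h2]
  have : Finite (ClS (lgV hV).E S) := inferInstance
  exact Subgroup.index_ne_zero_of_finite

include hV hVW in
lemma card_H1_ne_zero (hζ : IsPrimitiveRoot ζ p) (hp2 : p ≠ 2) (hpS : ExtCitation.pPrime p ∈ S) :
    Nat.card (H1 ((sL S).sub V) (trivAct V (ZMod p))) ≠ 0 := by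
  have h1 := card_H1_sq hζ hV hVW hp2 hpS
  have := finite_kerV hζ hV hVW hpS
  intro h0
  rw [h0, zero_pow two_ne_zero] at h1
  have h2 : 0 < Nat.card (kerV hζ hV hVW) := Nat.card_pos
  have h3 : 0 < Nat.card (kerV hζ hV hVW) ^ 2 * p ^ (2 * (ptd S).s V + V.index) :=
    mul_pos (pow_pos h2 _) (pow_pos hp.out.pos _)
  omega

lemma resAct_muA (V : Subgroup GQ) (hVW : V ≤ muW p) : resAct (muA p) V = trivAct V (ZMod p) := by
  ext g a
  exact muW_triv p g (hVW g.2) a

/-! ### Shapiro -/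

section shapiro

variable {U : Subgroup GQ} (hU : IsOpenSub (sL S) U) (hUW : U ≤ muW p)

/-- the stabiliser of the trivial coset (equal to `U`) -/
noncomputable abbrev stU (U : Subgroup GQ) : Subgroup GQ := stab (cosetAct U) ((1 : GQ) : GQ ⧸ U)

lemma stU_eq (U : Subgroup GQ) : stU U = U := stab_cosetAct U

include hU in
lemma stU_open : IsOpenSub (sL S) (stU U) := by rw [stU_eq]; exact hU

include hUW in
lemma stU_le : stU U ≤ muW p := by rw [stU_eq]; exact hUW

lemma smooth_muA (hpS : ExtCitation.pPrime p ∈ S) : Smooth (sL S) (muA p) := by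
  obtain ⟨ζ, hζ⟩ := exists_zeta (S := S) hpS
  intro a
  obtain ⟨N, hN, h⟩ := (lgSL S).smooth ((muG hζ).f a)
  refine ⟨N, hN, fun s hs => zetaHom_injective hζ ?_⟩
  have h1 := (muG hζ).comm s a
  rw [h s hs] at h1
  exact h1

include hU hUW in
/-- the Shapiro isomorphism followed by the identification of the action -/
lemma card_sh1 (hpS : ExtCitation.pPrime p ∈ S) :
    Nat.card (H1 (sL S) (mapAct (cosetAct U) (muA p))) =
      Nat.card (H1 ((sL S).sub (stU U)) (trivAct (stU U) (ZMod p))) := by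
  have := hU.finiteIndex
  rw [← resAct_muA (stU U) (stU_le hUW)]
  exact Nat.card_congr (Equiv.ofBijective _ (sh_h1_bijective (levelTrivial_cosetAct hU)
    (smooth_muA hpS) (isTrans_cosetAct U)))

include hU hUW in
lemma card_sh2 (hpS : ExtCitation.pPrime p ∈ S) :
    Nat.card (H2 (sL S) (mapAct (cosetAct U) (muA p))) =
      Nat.card (H2 ((sL S).sub (stU U)) (trivAct (stU U) (ZMod p))) := by
  have := hU.finiteIndex
  rw [← resAct_muA (stU U) (stU_le hUW)]
  exact Nat.card_congr (Equiv.ofBijective _ (sh_h2_bijective (levelTrivial_cosetAct hU)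
    (smooth_muA hpS) (isTrans_cosetAct U)))

/-- classes dying in `H²(Map(G/U, Ωˣ))` -/
lemma card_le_kerV (hpS : ExtCitation.pPrime p ∈ S) (hζ : IsPrimitiveRoot ζ p)
    (T : AddSubgroup (H2 (sL S) (mapAct (cosetAct U) (muA p))))
    (hT : ∀ x ∈ T, ((muG hζ).mapX (cosetAct U)).h2 (sL S) x = 0) :
    Nat.card T ≤ Nat.card (kerV hζ (stU_open hU) (stU_le hUW)) ∧ Finite T := by
  have := hU.finiteIndex
  have hfin := finite_kerV hζ (stU_open hU) (stU_le hUW) hpS
  have hinj := (sh_h2_bijective (levelTrivial_cosetAct hU)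
    (smooth_muA hpS) (isTrans_cosetAct U)).1
  -- the composite map
  let P : PairHom (sL S) (mapAct (cosetAct U) (muA p)) ((sL S).sub (stU U))
      (trivAct (stU U) (ZMod p)) :=
    { r := (stU U).subtype
      f := (shPair (sL S) (cosetAct U) (muA p) ((1 : GQ) : GQ ⧸ U)).f
      lev := (shPair (sL S) (cosetAct U) (muA p) ((1 : GQ) : GQ ⧸ U)).lev
      comm := fun γ a => by
        rw [← resAct_muA (stU U) (stU_le hUW)]
        exact (shPair (sL S) (cosetAct U) (muA p) ((1 : GQ) : GQ ⧸ U)).comm γ a }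
  have hP : Function.Injective P.h2 := by
    have key : ∀ (ρ' : Act (stU U) (ZMod p)) (h : ρ' = resAct (muA p) (stU U))
        (hc : ∀ γ a, P.f (mapAct (cosetAct U) (muA p) (P.r γ) a) = ρ' γ (P.f a)),
        Function.Injective (PairHom.mk P.r P.f P.lev hc : PairHom (sL S)
          (mapAct (cosetAct U) (muA p)) ((sL S).sub (stU U)) ρ').h2 := by
      rintro ρ' rfl hc
      exact hinj
    exact key _ (resAct_muA (stU U) (stU_le hUW)).symm P.comm
  have hmem : ∀ x ∈ T, P.h2 x ∈ kerV hζ (stU_open hU) (stU_le hUW) := by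
    intro x hx
    rw [AddMonoidHom.mem_ker]
    have h1 := congrArg (shPair (sL S) (cosetAct U) (lgSL S).act ((1 : GQ) : GQ ⧸ U)).h2 (hT x hx)
    rw [map_zero, EHom.h2, ← PairHom.h2_comp] at h1
    rw [EHom.h2, ← PairHom.h2_comp]
    refine Eq.trans ?_ h1
    exact PairHom.h2_congr (fun _ => rfl) (fun _ => rfl) x
  let Φ : T → kerV hζ (stU_open hU) (stU_le hUW) := fun x => ⟨P.h2 x, hmem x x.2⟩
  have hΦ : Function.Injective Φ := fun a b h =>
    Subtype.ext (hP (congrArg Subtype.val h))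
  exact ⟨Nat.card_le_card_of_injective Φ hΦ, Finite.of_injective Φ hΦ⟩

end shapiro

end Fermat.Agent.PTGlob
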