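import Fermat.Agent.PTC.Kum
import Fermat.Agent.PTC.Bridge

/-!
# The fields `fin`, `kum_le`, `kum_ge`
-/

set_option autoImplicit false

open scoped Pointwise NumberField

namespace Fermat.Agent.PTGlob

open Fermat.Agent.PT Fermat.Agent.PTLocal Fermat.Agent.CFT Fermat.Agent.CFT6 Fermat.Agent.PTC

-- the frozen algebra structure on `ℚ̄`, and the induced ones on subfields
attribute [-instance] DivisionRing.toRatAlgebra
noncomputable local instance instAlgebraQb9 : Algebra ℚ (AlgebraicClosure ℚ) :=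
  DivisionRing.toRatAlgebra

variable {S : Finset Nat.Primes} {p : ℕ} [hp : Fact p.Prime] {ζ : OmS S} (hζ : IsPrimitiveRoot ζ p)

/-- the input from global class field theory -/
def AbhnHyp : Prop := ∀ U : Subgroup GQ, IsOpenSub (sL S) U → U ≤ muW p →
  ∀ x ∈ (ptd S).sha2 (mapAct (cosetAct U) (muA p)), ((muG hζ).mapX (cosetAct U)).h2 (sL S) x = 0

variable {U : Subgroup GQ} (hU : IsOpenSub (sL S) U) (hUW : U ≤ muW p)

include hUW in
lemma stab_le_loc (v : ↥S) (x : GQ ⧸ U) :
    stab ((cosetAct U).comp ((ptd S).r v)) x ≤ (muW p).comap ((ptd S).r v) := by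
  intro γ hγ
  obtain ⟨g, rfl⟩ := QuotientGroup.mk_surjective x
  have h1 : (((ptd S).r v γ * g : GQ) : GQ ⧸ U) = (g : GQ ⧸ U) := hγ
  have h2 : g⁻¹ * ((ptd S).r v γ) * g ∈ U := by
    have := QuotientGroup.eq.1 h1.symm
    rwa [← mul_assoc] at this
  have h3 := (muW_normal p).conj_mem _ (hUW h2) g
  show (ptd S).r v γ ∈ muW p
  have h4 : g * (g⁻¹ * ((ptd S).r v γ) * g) * g⁻¹ = (ptd S).r v γ := by group
  rwa [h4] at h3

include hU hUW in
lemma card_loc_H2' (hpS : ExtCitation.pPrime p ∈ S) (v : ↥S) :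
    Nat.card (H2 ((ptd S).Lv v) ((mapAct (cosetAct U) (muA p)).comp ((ptd S).r v))) =
      p ^ Nat.card (PT.Orb ((cosetAct U).comp ((ptd S).r v))) := by
  have := hU.finiteIndex
  have : Finite (PT.Orb ((cosetAct U).comp ((ptd S).r v))) := Quotient.finite _
  have : Fintype (PT.Orb ((cosetAct U).comp ((ptd S).r v))) := Fintype.ofFinite _
  have hl : LevelTrivial ((ptd S).Lv v) ((cosetAct U).comp ((ptd S).r v)) :=
    LevelTrivial.along (D := ptd S) v (levelTrivial_cosetAct hU)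
  have hs : Smooth ((ptd S).Lv v) ((muA p).comp ((ptd S).r v)) :=
    Smooth.along (D := ptd S) v (muA_smooth p hpS)
  rw [Nat.card_congr ((mapComp (cosetAct U) (muA p) ((ptd S).r v)).h2 ((ptd S).Lv v)).toEquiv,
    Nat.card_congr (Equiv.ofBijective _ ((reps_orb ((cosetAct U).comp ((ptd S).r v))).h2_bijective hl
      hs)), Nat.card_pi, Nat.card_eq_fintype_card (α := PT.Orb _),
    Finset.prod_eq_pow_card]
  · rw [Finset.card_univ]
  · intro j _
    have h1 := stab_le_loc hUW v (Quotient.out j)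
    have hres : resAct ((muA p).comp ((ptd S).r v)) (stab ((cosetAct U).comp ((ptd S).r v)) (Quotient.out j)) =
        trivAct _ (ZMod p) := by
      ext u a
      exact (locHyp p v).triv u (h1 u.2) a
    rw [hres]
    exact (locHyp p v).card2 _ (isOpenSub_stab hl _) h1

include hU hUW in
lemma finite_loc_H2 (hpS : ExtCitation.pPrime p ∈ S) (v : ↥S) :
    Finite (H2 ((ptd S).Lv v) ((mapAct (cosetAct U) (muA p)).comp ((ptd S).r v))) := by
  apply Nat.finite_of_card_ne_zero
  rw [card_loc_H2' hU hUW hpS]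
  exact pow_ne_zero _ hp.out.ne_zero

include hU hUW in
lemma finite_H2 (hpS : ExtCitation.pPrime p ∈ S) (hab : AbhnHyp hζ) :
    Finite (H2 (sL S) (mapAct (cosetAct U) (muA p))) := by
  have h1 := (card_le_kerV hU hUW hpS hζ _ (hab U hU hUW)).2
  have h2 : ∀ v : ↥S, Finite (H2 ((ptd S).Lv v) ((mapAct (cosetAct U) (muA p)).comp ((ptd S).r v))) :=
    finite_loc_H2 hU hUW hpS
  have h3 : Finite (∀ v : (ptd S).ι, H2 ((ptd S).Lv v)
      ((mapAct (cosetAct U) (muA p)).comp ((ptd S).r v))) := by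
    have : Finite (ptd S).ι := inferInstanceAs (Finite ↥S)
    exact Pi.finite
  have h4 : Finite ((ptd S).tot2 (mapAct (cosetAct U) (muA p))).range :=
    Finite.of_injective _ Subtype.val_injective
  have h5 : Finite ((ptd S).tot2 (mapAct (cosetAct U) (muA p))).ker := h1
  apply Nat.finite_of_card_ne_zero
  rw [card_eq_ker_mul_range ((ptd S).tot2 (mapAct (cosetAct U) (muA p)))]
  exact mul_ne_zero Nat.card_pos.ne' Nat.card_pos.ne'

include hU hUW in
/-- the field `fin` -/
theorem fin (hp2 : p ≠ 2) (hpS : ExtCitation.pPrime p ∈ S) (hab : AbhnHyp hζ) :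
    Fin012 (sL S) (mapAct (cosetAct U) (muA p)) where
  h0 := by
    have := hU.finiteIndex
    exact Finite.of_injective _ Subtype.val_injective
  h1 := by
    apply Nat.finite_of_card_ne_zero
    rw [card_sh1 hU hUW hpS]
    exact card_H1_ne_zero (stU_open hU) (stU_le hUW) hζ hp2 hpS
  h2 := finite_H2 hζ hU hUW hpS hab

include hU hUW in
/-- the field `kum_le` -/
theorem kum_le (hp2 : p ≠ 2) (hpS : ExtCitation.pPrime p ∈ S) (hab : AbhnHyp hζ) :
    Nat.card ((ptd S).sha2 (mapAct (cosetAct U) (muA p))) ^ 2 * p ^ (2 * (ptd S).s U + U.index) ≤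
      Nat.card (H1 (sL S) (mapAct (cosetAct U) (muA p))) ^ 2 := by
  have h1 := (card_le_kerV hU hUW hpS hζ _ (hab U hU hUW)).1
  have h2 := card_H1_sq hζ (stU_open hU) (stU_le hUW) hp2 hpS
  have hs : p ^ (2 * (ptd S).s (stU U) + (stU U).index) = p ^ (2 * (ptd S).s U + U.index) := by
    rw [stU_eq]
  rw [card_sh1 hU hUW hpS, h2, hs]
  exact Nat.mul_le_mul_right _ (Nat.pow_le_pow_left h1 2)

include hU hUW in
/-- the field `kum_ge` -/
theorem kum_ge (hp2 : p ≠ 2) (hpS : ExtCitation.pPrime p ∈ S) (hab : AbhnHyp hζ) :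
    Nat.card (H1 (sL S) (mapAct (cosetAct U) (muA p))) ^ 2 ≤
      Nat.card (H2 (sL S) (mapAct (cosetAct U) (muA p))) ^ 2 * p ^ (2 * (ptd S).s U + U.index) := by
  have h2 := card_H1_sq hζ (stU_open hU) (stU_le hUW) hp2 hpS
  have h3 := finite_H2 hζ hU hUW hpS hab
  have h4 : Finite (H2 ((sL S).sub (stU U)) (trivAct (stU U) (ZMod p))) := by
    apply Nat.finite_of_card_ne_zero
    rw [← card_sh2 hU hUW hpS]
    exact Nat.card_pos.ne'
  have hs : p ^ (2 * (ptd S).s (stU U) + (stU U).index) = p ^ (2 * (ptd S).s U + U.index) := by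
    rw [stU_eq]
  rw [card_sh1 hU hUW hpS, card_sh2 hU hUW hpS, h2, hs]
  refine Nat.mul_le_mul_right _ (Nat.pow_le_pow_left ?_ 2)
  exact Nat.card_le_card_of_injective _ Subtype.val_injective

end Fermat.Agent.PTGlob
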