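import Fermat.Agent.PTC.RecLoc
import Fermat.Agent.CFT6.RecExists

/-!
# Local norms in terms of the `G`-set `ℤ/p`
-/

set_option autoImplicit false

open NumberField Module

namespace Fermat.Agent.PTC

open Fermat.Agent.PT Fermat.Agent.CFT Fermat.Agent.CFT6 Fermat.Agent.PTLocal

/-- the algebraic closure of `ℚ` -/
abbrev Qb : Type := AlgebraicClosure ℚ

variable {p : ℕ} [hp : Fact p.Prime]

section emb

variable {Lv : Levels (Qb ≃ₐ[ℚ] Qb)} {L : IntermediateField ℚ Qb} [NumberField L] {χ : Chi p Lv}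
  (hχ : ∀ g, (χ : (Qb ≃ₐ[ℚ] Qb) → ZMod p) g = 0 ↔ g ∈ L.fixingSubgroup)
  (q : Nat.Primes) {Lq : Levels (Gq q)} {χq : Chi p Lq}
  (hχq : ∀ γ, (χq : Gq q → ZMod p) γ =
    (χ : (Qb ≃ₐ[ℚ] Qb) → ZMod p) (localGaloisToGlobal (q : ℕ) γ))

/-- the embedding `L → ℚ_q^al` attached to `g` -/
noncomputable def embOf (L : IntermediateField ℚ Qb) (q : Nat.Primes) (g : Qb ≃ₐ[ℚ] Qb) :
    Emb L q :=
  ((padicEmbedding (q : ℕ)).toRingHom.comp ((g : Qb →ₐ[ℚ] Qb) : Qb →+* Qb)).comp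
    (algebraMap L Qb)

lemma embOf_apply (L : IntermediateField ℚ Qb) (q : Nat.Primes) (g : Qb ≃ₐ[ℚ] Qb) (x : L) :
    embOf L q g x = padicEmbedding (q : ℕ) (g (x : Qb)) := rfl

lemma smul_embOf (L : IntermediateField ℚ Qb) (q : Nat.Primes) (g : Qb ≃ₐ[ℚ] Qb) (γ : Gq q) :
    γ • embOf L q g = embOf L q (localGaloisToGlobal (q : ℕ) γ * g) := by
  apply RingHom.ext
  intro x
  rw [smul_emb_apply, embOf_apply, embOf_apply]
  exact (padicEmbedding_localGaloisToGlobal (q : ℕ) γ (g (x : Qb))).symm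

include hχ in
omit [NumberField L] in
lemma embOf_eq_iff (g g' : Qb ≃ₐ[ℚ] Qb) : embOf L q g = embOf L q g' ↔
    (χ : (Qb ≃ₐ[ℚ] Qb) → ZMod p) g = (χ : (Qb ≃ₐ[ℚ] Qb) → ZMod p) g' := by
  have h1 : (χ : (Qb ≃ₐ[ℚ] Qb) → ZMod p) g = (χ : (Qb ≃ₐ[ℚ] Qb) → ZMod p) g' ↔
      g⁻¹ * g' ∈ L.fixingSubgroup := by
    rw [← hχ, chi_mul, chi_inv, neg_add_eq_zero]
  rw [h1, IntermediateField.mem_fixingSubgroup_iff]
  constructor
  · intro h x hx
    have h2 := congrArg (fun f : Emb L q => f ⟨x, hx⟩) h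
    have h3 : g x = g' x := (padicEmbedding (q : ℕ)).injective h2
    show g.symm (g' x) = x
    rw [← h3, AlgEquiv.symm_apply_apply]
  · intro h
    apply RingHom.ext
    intro x
    rw [embOf_apply, embOf_apply]
    congr 1
    have h2 : g.symm (g' (x : Qb)) = x := h x x.2
    conv_lhs => rw [← h2]
    rw [AlgEquiv.apply_symm_apply]

variable (hχ0 : χ ≠ 0) (hL : finrank ℚ L = p)

include hχ hL in
lemma exists_bij (hχ0 : χ ≠ 0) : ∃ e : ZMod p ≃ Emb L q, ∀ g, e ((χ : (Qb ≃ₐ[ℚ] Qb) → ZMod p) g) = embOf L q g := by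
  choose s hs using fun x : ZMod p => chi_surjective hχ0 x
  have hinj : Function.Injective (fun x => embOf L q (s x)) := by
    intro x y h
    rw [← hs x, ← hs y]
    exact (embOf_eq_iff hχ q _ _).1 h
  have hfin : Finite (Emb L q) := inferInstance
  have hcard : Nat.card (ZMod p) = Nat.card (Emb L q) := by
    have h1 : Fintype.card (Emb L q) = finrank ℚ L := NumberField.Embeddings.card L (Cq q)
    rw [Nat.card_zmod, Nat.card_eq_fintype_card, h1, hL]
  have hbij : Function.Bijective (fun x => embOf L q (s x)) :=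
    (Nat.bijective_iff_injective_and_card _).2 ⟨hinj, hcard⟩
  refine ⟨Equiv.ofBijective _ hbij, fun g => ?_⟩
  show embOf L q (s _) = _
  rw [embOf_eq_iff hχ q, hs]

include hχ hχq hL in
/-- local norms as sums over the `G`-set `ℤ/p`. -/
theorem normAt_iff (hχ0 : χ ≠ 0) (b : H0 (galAct ℚ_[(q : ℕ)] (Cq q))) :
    NormAt L q ((Additive.toMul (b : Additive (Cq q)ˣ) : (Cq q)ˣ) : Cq q) ↔
      ∃ f : H0 (mapAct (xi χq) (galAct ℚ_[(q : ℕ)] (Cq q))),
        (sumHom (xi χq) (galAct ℚ_[(q : ℕ)] (Cq q))).h0 f = b := by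
  obtain ⟨e, he⟩ := exists_bij hχ q hL hχ0
  have he' : ∀ (γ : Gq q) (x : ZMod p), e (xi χq γ x) = γ • e x := by
    intro γ x
    obtain ⟨g, rfl⟩ := chi_surjective hχ0 x
    rw [he, smul_embOf, ← he, xi_apply, hχq, chi_mul, add_comm]
  constructor
  · rintro ⟨y, hy, hyb⟩
    refine ⟨⟨fun x => Additive.ofMul (y (e x)), ?_⟩, ?_⟩
    · rw [mem_H0_mapAct]
      intro γ x
      apply Additive.toMul.injective
      apply Units.ext
      show ((y (e (xi χq γ x)) : (Cq q)ˣ) : Cq q) = γ ((y (e x) : (Cq q)ˣ) : Cq q)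
      rw [he']
      exact hy γ (e x)
    · apply Subtype.ext
      apply Additive.toMul.injective
      apply Units.ext
      rw [← hyb]
      show ((Additive.toMul (∑ x : ZMod p, Additive.ofMul (y (e x))) : (Cq q)ˣ) : Cq q) = _
      rw [toMul_sum, Units.coe_prod]
      exact Equiv.prod_comp e (fun ψ : Emb L q => ((y ψ : (Cq q)ˣ) : Cq q))
  · rintro ⟨f, hf⟩
    have hf1 := mem_H0_mapAct.1 f.2
    refine ⟨fun ψ => Additive.toMul ((f : ZMod p → Additive (Cq q)ˣ) (e.symm ψ)), ?_, ?_⟩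
    · intro τ ψ
      obtain ⟨x, rfl⟩ := e.surjective ψ
      rw [← he']
      show ((Additive.toMul ((f : ZMod p → Additive (Cq q)ˣ) (e.symm (e (xi χq τ x)))) : (Cq q)ˣ) :
        Cq q) = τ ((Additive.toMul ((f : ZMod p → Additive (Cq q)ˣ) (e.symm (e x))) : (Cq q)ˣ) :
        Cq q)
      rw [Equiv.symm_apply_apply, Equiv.symm_apply_apply, hf1]
      rfl
    · rw [← hf]
      show _ = ((Additive.toMul (∑ x : ZMod p, (f : ZMod p → Additive (Cq q)ˣ) x) : (Cq q)ˣ) :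
        Cq q)
      rw [toMul_sum, Units.coe_prod]
      exact Equiv.prod_comp e.symm (fun x : ZMod p =>
        ((Additive.toMul ((f : ZMod p → Additive (Cq q)ˣ) x) : (Cq q)ˣ) : Cq q))

include hχ hχq hL in
/-- transitivity means that the local character is non-trivial -/
lemma chi_ne_zero_of_trans (hχ0 : χ ≠ 0) (h : TransAt L q) : χq ≠ 0 := by
  obtain ⟨e, he⟩ := exists_bij hχ q hL hχ0
  rintro rfl
  obtain ⟨τ, hτ⟩ := h (e 0) (e 1)
  obtain ⟨g, hg⟩ := chi_surjective hχ0 0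
  have h1 := he g
  rw [hg] at h1
  rw [h1, smul_embOf, ← he, chi_mul, hg, add_zero, ← hχq] at hτ
  exact zero_ne_one (e.injective hτ)

end emb

end Fermat.Agent.PTC
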