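import Fermat.Agent.PTLocal.LocHyp

/-!
# Local classes with values in `μ_p` are killed by every cyclic extension of degree `p`
-/

set_option autoImplicit false

namespace Fermat.Agent.PTLocal

open Fermat.Agent.PT IntermediateField

section

variable {q : ℕ} [hq : Fact q.Prime] {p : ℕ} [hp : Fact p.Prime]
variable {G : Type} [Group G] {L : Levels G} (hG : LGal ℚ_[q] (PadicAlgCl q) L)
  {τ : Act G (ZMod p)} {i : ZMod p →+ Additive (PadicAlgCl q)ˣ} (hi : Function.Injective i)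
  (hc : ∀ g a, i (τ g a) = hG.act g (i a))

omit hp in
/-- naturality of `cycδ` -/
lemma cycδ_nat {p : ℕ} [hp : Fact p.Prime] {G Γ : Type*} [Group G] [Group Γ] {L : Levels G}
    {L' : Levels Γ} {A B : Type*} [AddCommGroup A] [AddCommGroup B] {ρ : Act G A} {σ : Act Γ B}
    (φ : PairHom L ρ L' σ) (hρ : Smooth L ρ) (hσ : Smooth L' σ) (χ : Chi p L) (χ' : Chi p L')
    (h : ∀ γ, (χ' : Γ → ZMod p) γ = (χ : G → ZMod p) (φ.r γ)) (b : H0 ρ) :
    φ.h2 (cycδ hρ χ b) = cycδ hσ χ' (φ.h0 b) := by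
  rw [cycδ_apply, cycδ_apply, PairHom.h2_mk]
  congr 1
  apply Subtype.ext
  funext γ γ'
  show φ.f (-(carry ((χ : G → ZMod p) (φ.r γ)) ((χ : G → ZMod p) (φ.r γ')) • (b : A))) =
    -(carry ((χ' : Γ → ZMod p) γ) ((χ' : Γ → ZMod p) γ') • (φ.f b))
  rw [map_neg, map_zsmul, h, h]

omit hp in
/-- injectivity of `H²(μ_p) → H²(Ωˣ)` -/
lemma kumMu_h2_injective {p : ℕ} [hp : Fact p.Prime] {τ : Act G (ZMod p)}
    {i : ZMod p →+ Additive (PadicAlgCl q)ˣ} (hi : Function.Injective i)
    (hc : ∀ g a, i (τ g a) = hG.act g (i a)) :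
    Function.Injective ((kumMu hG hi hc).i.h2 L) := by
  rw [injective_iff_map_eq_zero]
  intro y hy
  obtain ⟨z, hz⟩ := ((kumMu hG hi hc).exact_H2_left hG.smooth y).1 hy
  rw [← hz, hG.h90 z, map_zero]

/-- every class of `H²(μ_p)` becomes trivial over every cyclic extension of degree `p`. -/
theorem constHom_mu_eq_zero {χ : Chi p L} (hχ : χ ≠ 0) (y : H2 L τ) :
    (constHom (xi χ) hG.act).h2 L ((kumMu hG hi hc).i.h2 L y) = 0 := by
  set T : H2 L τ →+ H2 L hG.act := (kumMu hG hi hc).i.h2 L with hT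
  have hTi : Function.Injective T := kumMu_h2_injective hG hi hc
  have hcT : Nat.card T.range = p := by
    rw [← Nat.card_congr (AddMonoidHom.ofInjective hTi).toEquiv]
    exact hG.card_H2_mu hi hc
  have hker : (cycδ hG.smooth χ).ker = ((sumHom (xi χ) hG.act).h0).range := by
    ext b
    rw [AddMonoidHom.mem_ker, cycδ_eq_zero hG.smooth χ (hG.h90' hχ) b]
    rfl
  have hcδ : Nat.card (cycδ hG.smooth χ).range = p := by
    rw [← AddSubgroup.index_ker, hker]
    exact hG.norm_index hχ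
  have hle : (cycδ hG.smooth χ).range ≤ T.range := by
    rintro _ ⟨b, rfl⟩
    have hpx : p • cycδ hG.smooth χ b = 0 := by
      rw [← map_nsmul]
      refine (cycδ_eq_zero hG.smooth χ (hG.h90' hχ) _).2 ⟨(constHom (xi χ) hG.act).h0 b, ?_⟩
      apply Subtype.ext
      show ∑ _x : ZMod p, (b : Additive (PadicAlgCl q)ˣ) = p • (b : Additive (PadicAlgCl q)ˣ)
      rw [Finset.sum_const, Finset.card_univ, ZMod.card]
    have h1 : (kumMu hG hi hc).p.h2 L (cycδ hG.smooth χ b) = 0 := by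
      rw [← hpx]
      exact EHom.h2_nsmul L (fun a => rfl) _
    obtain ⟨y, hy⟩ := ((kumMu hG hi hc).exact_H2_mid hG.smooth _).1 h1
    exact ⟨y, hy⟩
  have hfin : Finite T.range := Nat.finite_of_card_ne_zero (by rw [hcT]; exact hp.out.ne_zero)
  have heq : (cycδ hG.smooth χ).range = T.range := by
    apply SetLike.coe_injective
    exact Set.eq_of_subset_of_ncard_le hle (by
      rw [← Nat.card_coe_set_eq, ← Nat.card_coe_set_eq]
      exact (hcT.trans hcδ.symm).le) (Set.toFinite _)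
  obtain ⟨b, hb⟩ : T y ∈ (cycδ hG.smooth χ).range := by
    rw [heq]; exact ⟨y, rfl⟩
  rw [← hb]
  exact constHom_cycδ hG.smooth χ b

end

end Fermat.Agent.PTLocal
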